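/-
S24 piece A5 (DIFF), core part (Mathlib + Prelude only).

Kähler differentials of a function field of one variable `F/K` and their orders at places.
No completions: `Ω[𝒪_v/K] = 𝒪_v · Dπ` by Nakayama, using that `Ω[𝒪_v/K]` is a finite module
(`𝒪_v` is essentially of finite type over `K`) and that the residue field is `K`.
-/
import Mathlib
import Fermat.Prelude.Def_AlgebraicCurve_CanonicalDivisor

set_option autoImplicit false

open KaehlerDifferential IntermediateField AlgebraicCurve

namespace Fermat.Agent.S24.DiffCore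

variable {K F : Type*} [Field K] [Field F] [Algebra K F]

/-! ### `D x` spans and is nonzero -/

/-- `D` of any element of `K(x)` is a multiple of `D x`. -/
theorem D_mem_span_of_mem_adjoin (x : F) {y : F} (hy : y ∈ K⟮x⟯) :
    D K F y ∈ Submodule.span F {D K F x} := by
  induction hy using IntermediateField.adjoin_induction with
  | mem z hz =>
    rw [Set.mem_singleton_iff] at hz
    subst hz
    exact Submodule.subset_span rfl
  | algebraMap c =>
    rw [Derivation.map_algebraMap]
    exact Submodule.zero_mem _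
  | add a b _ _ ha hb =>
    rw [map_add]
    exact Submodule.add_mem _ ha hb
  | inv a _ ha =>
    rw [Derivation.leibniz_inv]
    exact Submodule.smul_mem _ _ ha
  | mul a b _ _ ha hb =>
    rw [Derivation.leibniz]
    exact Submodule.add_mem _ (Submodule.smul_mem _ _ hb) (Submodule.smul_mem _ _ ha)

/-- If `F` is separable algebraic over `K(x)`, then `D x` spans `Ω[F/K]`. -/
theorem span_D_eq_top_of_isSeparable (x : F) [Algebra.IsSeparable K⟮x⟯ F] :
    Submodule.span F {D K F x} = ⊤ := by
  have hunr : Algebra.FormallyUnramified K⟮x⟯ F := Algebra.FormallyUnramified.of_isSeparable _ _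
  have hsurj : Function.Surjective (KaehlerDifferential.mapBaseChange K K⟮x⟯ F) := by
    intro ω
    exact (KaehlerDifferential.exact_mapBaseChange_map K K⟮x⟯ F ω).mp (Subsingleton.elim _ _)
  rw [eq_top_iff]
  rintro ω -
  obtain ⟨t, rfl⟩ := hsurj ω
  induction t using TensorProduct.induction_on with
  | zero => simp
  | add a b ha hb =>
    rw [map_add]
    exact Submodule.add_mem _ ha hb
  | tmul f m =>
    rw [KaehlerDifferential.mapBaseChange_tmul]
    refine Submodule.smul_mem _ _ ?_
    have hm : m ∈ Submodule.span K⟮x⟯ (Set.range (D K K⟮x⟯)) := by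
      rw [KaehlerDifferential.span_range_derivation]; trivial
    induction hm using Submodule.span_induction with
    | mem m hm =>
      obtain ⟨e, rfl⟩ := hm
      rw [KaehlerDifferential.map_D]
      exact D_mem_span_of_mem_adjoin x e.2
    | zero => simp
    | add a b _ _ ha hb =>
      rw [map_add]
      exact Submodule.add_mem _ ha hb
    | smul c a _ ha =>
      rw [map_smul]
      rw [show c • (KaehlerDifferential.map K K K⟮x⟯ F) a
        = (algebraMap K⟮x⟯ F c) • (KaehlerDifferential.map K K K⟮x⟯ F) a from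
          (algebraMap_smul F c _).symm]
      exact Submodule.smul_mem _ _ ha

/-- In characteristic zero, if `F` is finite over `K(x)`, then `D x` spans `Ω[F/K]`. -/
theorem span_D_eq_top [CharZero K] (x : F) [FiniteDimensional K⟮x⟯ F] :
    Submodule.span F {D K F x} = ⊤ := by
  have : CharZero K⟮x⟯ := charZero_of_injective_algebraMap (algebraMap K K⟮x⟯).injective
  have hsep : Algebra.IsSeparable K⟮x⟯ F := inferInstance
  exact span_D_eq_top_of_isSeparable x

theorem essFiniteType_of_finite (x : F) [FiniteDimensional K⟮x⟯ F] :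
    Algebra.EssFiniteType K F := by
  have h1 : Algebra.EssFiniteType K K⟮x⟯ := by
    rw [IntermediateField.essFiniteType_iff]
    exact ⟨{x}, by simp⟩
  have h2 : Algebra.EssFiniteType K⟮x⟯ F := inferInstance
  exact Algebra.EssFiniteType.comp K K⟮x⟯ F

/-- (D1) `D x ≠ 0` for `x` transcendental with `F/K(x)` finite, in characteristic zero. -/
theorem D_ne_zero [CharZero K] (x : F) (hx : Transcendental K x) [FiniteDimensional K⟮x⟯ F] :
    D K F x ≠ 0 := by
  intro h0
  have htop := span_D_eq_top (K := K) x
  rw [h0, Submodule.span_zero_singleton] at htop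
  have hsub : Subsingleton Ω[F⁄K] := by
    refine ⟨fun a b => ?_⟩
    have ha : a ∈ (⊥ : Submodule F Ω[F⁄K]) := htop ▸ Submodule.mem_top
    have hb : b ∈ (⊥ : Submodule F Ω[F⁄K]) := htop ▸ Submodule.mem_top
    rw [Submodule.mem_bot] at ha hb
    rw [ha, hb]
  have hunr : Algebra.FormallyUnramified K F := ⟨hsub⟩
  have hess : Algebra.EssFiniteType K F := essFiniteType_of_finite x
  have hsepK : Algebra.IsSeparable K F := (Algebra.FormallyUnramified.iff_isSeparable K F).mp hunr
  exact hx (Algebra.IsSeparable.isAlgebraic K F |>.isAlgebraic x)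

/-- (D2) every differential is a multiple of `D x`. -/
theorem exists_eq_smul_D [CharZero K] (x : F) [FiniteDimensional K⟮x⟯ F] (ω : Ω[F⁄K]) :
    ∃ g : F, ω = g • D K F x := by
  have hmem : ω ∈ Submodule.span F {D K F x} := by
    rw [span_D_eq_top (K := K) x]; trivial
  obtain ⟨g, hg⟩ := Submodule.mem_span_singleton.mp hmem
  exact ⟨g, hg.symm⟩

/-! ### Change of the transcendental element -/

open scoped IntermediateField.algebraAdjoinAdjoin in
theorem isAlgebraic_algebraAdjoin (x : F) [Algebra.IsAlgebraic K⟮x⟯ F] :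
    Algebra.IsAlgebraic (Algebra.adjoin K ({x} : Set F)) F :=
  Algebra.IsAlgebraic.trans (Algebra.adjoin K ({x} : Set F)) K⟮x⟯ F

theorem isAlgebraic_adjoin_of_transcendental (x π : F) (hπ : Transcendental K π)
    [Algebra.IsAlgebraic K⟮x⟯ F] : Algebra.IsAlgebraic K⟮π⟯ F := by
  have h1 : Algebra.IsAlgebraic (Algebra.adjoin K ({x} : Set F)) F := isAlgebraic_algebraAdjoin x
  have hle : Algebra.trdeg K F ≤ 1 := by
    have := Algebra.IsAlgebraic.trdeg_le_cardinalMk (R := K) (A := F) (s := ({x} : Set F))
    simpa using this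
  have hind : AlgebraicIndependent K (fun _ : PUnit => π) :=
    (algebraicIndependent_unique_type_iff (ι := PUnit)).mpr hπ
  have hb : IsTranscendenceBasis K (fun _ : PUnit => π) :=
    hind.isTranscendenceBasis_of_trdeg_le_of_finite (by simpa using hle)
  have hrange : Set.range (fun _ : PUnit => π) = {π} := Set.range_const
  have := hb.isAlgebraic_field
  rwa [hrange] at this

/-- If `F/K(x)` is finite and `π` is transcendental over `K`, then `F/K(π)` is finite. -/
theorem finiteDimensional_adjoin_of_transcendental (x π : F) (hπ : Transcendental K π)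
    [FiniteDimensional K⟮x⟯ F] : FiniteDimensional K⟮π⟯ F := by
  have halg : Algebra.IsAlgebraic K⟮π⟯ F := isAlgebraic_adjoin_of_transcendental x π hπ
  have hess : Algebra.EssFiniteType K F := essFiniteType_of_finite x
  have hess' : Algebra.EssFiniteType K⟮π⟯ F := Algebra.EssFiniteType.of_comp K K⟮π⟯ F
  obtain ⟨s, hs⟩ := IntermediateField.fg_top K⟮π⟯ F
  have hfin : FiniteDimensional K⟮π⟯ (IntermediateField.adjoin K⟮π⟯ (s : Set F)) :=
    IntermediateField.finiteDimensional_adjoin (fun y _ => (halg.isAlgebraic y).isIntegral)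
  rw [hs] at hfin
  exact Module.Finite.equiv (IntermediateField.topEquiv (F := K⟮π⟯) (E := F)).toLinearEquiv

/-! ### Places: algebraic elements have order zero -/

theorem mem_of_isAlgebraic (v : Place K F) {y : F} (hy : IsAlgebraic K y) :
    y ∈ v.toValuationSubring := by
  have h1 : IsIntegral K y := hy.isIntegral
  have h2 : IsIntegral v.toValuationSubring y := h1.tower_top
  obtain ⟨z, hz⟩ := (IsIntegrallyClosed.isIntegral_iff (R := v.toValuationSubring) (K := F)).mp h2
  rw [← hz]
  exact z.2

theorem ord_eq_zero_of_isAlgebraic (v : Place K F) {y : F} (hy : IsAlgebraic K y) :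
    v.ord y = 0 := by
  rcases eq_or_ne y 0 with rfl | hy0
  · simp
  have h1 := mem_of_isAlgebraic v hy
  have h2 := mem_of_isAlgebraic v hy.inv
  let u : v.toValuationSubringˣ :=
    ⟨⟨y, h1⟩, ⟨y⁻¹, h2⟩, Subtype.ext (mul_inv_cancel₀ hy0), Subtype.ext (inv_mul_cancel₀ hy0)⟩
  exact v.ord_coe_unit u

/-- An element of nonzero order at some place is transcendental over `K`. -/
theorem transcendental_of_ord_ne_zero (v : Place K F) {y : F} (h : v.ord y ≠ 0) :
    Transcendental K y := fun hy => h (ord_eq_zero_of_isAlgebraic v hy)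

/-- (D3) the differential of an element of nonzero order (e.g. a uniformizer) is nonzero. -/
theorem D_ne_zero_of_ord_ne_zero [CharZero K] (x : F) [FiniteDimensional K⟮x⟯ F]
    (v : Place K F) {π : F} (hπ : v.ord π ≠ 0) : D K F π ≠ 0 := by
  have htr : Transcendental K π := transcendental_of_ord_ne_zero v hπ
  have hfin : FiniteDimensional K⟮π⟯ F := finiteDimensional_adjoin_of_transcendental x π htr
  exact D_ne_zero π htr

/-! ### The local ring of a place -/

/-- A nonzero element of order zero is (the coercion of) a unit of the valuation ring. -/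
theorem exists_unit_of_ord_eq_zero (v : Place K F) {s : F} (hs : s ≠ 0) (h0 : v.ord s = 0) :
    ∃ u : v.toValuationSubringˣ, ((u : v.toValuationSubring) : F) = s := by
  obtain ⟨ϖ, hϖ⟩ := IsDiscreteValuationRing.exists_irreducible v.toValuationSubring
  obtain ⟨u, hu⟩ := v.exists_unit_mul_zpow hs hϖ
  rw [h0, zpow_zero, mul_one] at hu
  exact ⟨u, hu.symm⟩

/-- From a finitely generated local model to `EssFiniteType`. -/
theorem essFiniteType_of_model (v : Place K F)
    (hmodel : ∃ G : Finset F, (∀ g ∈ G, g ∈ v.toValuationSubring) ∧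
      ∀ f ∈ v.toValuationSubring, ∃ b ∈ Algebra.adjoin K (G : Set F),
        ∃ s ∈ Algebra.adjoin K (G : Set F), s ≠ 0 ∧ v.ord s = 0 ∧ f = b / s) :
    Algebra.EssFiniteType K v.toValuationSubring := by
  classical
  obtain ⟨G, hG, hloc⟩ := hmodel
  let φ : v.toValuationSubring →ₐ[K] F := IsScalarTower.toAlgHom K v.toValuationSubring F
  let σ : Finset v.toValuationSubring := G.attach.image (fun g => ⟨g.1, hG g.1 g.2⟩)
  have himage : φ '' (σ : Set v.toValuationSubring) = (G : Set F) := by
    ext y
    constructor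
    · rintro ⟨z, hz, rfl⟩
      simp only [σ, Finset.coe_image, Set.mem_image, Finset.mem_coe, Finset.mem_attach,
        true_and] at hz
      obtain ⟨g, rfl⟩ := hz
      exact g.2
    · intro hy
      refine ⟨⟨y, hG y hy⟩, ?_, rfl⟩
      simp only [σ, Finset.coe_image, Set.mem_image, Finset.mem_coe, Finset.mem_attach,
        true_and]
      exact ⟨⟨y, hy⟩, rfl⟩
  have hlift : ∀ y ∈ Algebra.adjoin K (G : Set F),
      ∃ z ∈ Algebra.adjoin K (σ : Set v.toValuationSubring), (z : F) = y := by
    intro y hy
    rw [← himage, ← AlgHom.map_adjoin] at hy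
    obtain ⟨z, hz, rfl⟩ := hy
    exact ⟨z, hz, rfl⟩
  rw [Algebra.essFiniteType_iff]
  refine ⟨σ, fun f => ?_⟩
  obtain ⟨b, hb, s, hs, hs0, hsord, hfb⟩ := hloc f f.2
  obtain ⟨b', hb', hb'e⟩ := hlift b hb
  obtain ⟨s', hs', hs'e⟩ := hlift s hs
  obtain ⟨u, hu⟩ := exists_unit_of_ord_eq_zero v hs0 hsord
  have hus : (u : v.toValuationSubring) = s' := Subtype.ext (by rw [hu, hs'e])
  refine ⟨s', hs', hus ▸ u.isUnit, ?_⟩
  have : f * s' = b' := by
    apply Subtype.ext
    push_cast
    rw [hs'e, hb'e, hfb, div_mul_cancel₀ _ hs0]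
  rw [this]
  exact hb'

/-- `Ω[𝒪_v/K] = 𝒪_v · Dϖ` (Nakayama), when the residue field is `K` and `Ω[𝒪_v/K]` is finite. -/
theorem span_D_irreducible_eq_top (v : Place K F)
    [Module.Finite v.toValuationSubring Ω[v.toValuationSubring⁄K]]
    (hres : ∀ u : v.toValuationSubring, ∃ c : K,
      u - algebraMap K v.toValuationSubring c ∈ IsLocalRing.maximalIdeal v.toValuationSubring)
    (ϖ : v.toValuationSubring) (hϖ : Irreducible ϖ) :
    Submodule.span v.toValuationSubring {D K v.toValuationSubring ϖ} = ⊤ := by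
  rw [eq_top_iff]
  apply Submodule.le_of_le_smul_of_le_jacobson_bot Module.Finite.fg_top
    (IsLocalRing.maximalIdeal_le_jacobson _)
  have key : Submodule.span v.toValuationSubring (Set.range (D K v.toValuationSubring)) ≤
      Submodule.span v.toValuationSubring {D K v.toValuationSubring ϖ} ⊔
        IsLocalRing.maximalIdeal v.toValuationSubring • ⊤ := ?_
  · rwa [KaehlerDifferential.span_range_derivation] at key
  rw [Submodule.span_le]
  rintro _ ⟨u, rfl⟩
  obtain ⟨c, hc⟩ := hres u
  rw [hϖ.maximalIdeal_eq, Ideal.mem_span_singleton'] at hc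
  obtain ⟨u1, hu1⟩ := hc
  have hu : u = algebraMap K _ c + u1 * ϖ := by rw [hu1]; ring
  rw [hu, map_add, Derivation.map_algebraMap, zero_add, Derivation.leibniz]
  refine Submodule.add_mem _ (Submodule.mem_sup_left
    (Submodule.smul_mem _ _ (Submodule.subset_span rfl))) (Submodule.mem_sup_right ?_)
  refine Submodule.smul_mem_smul ?_ Submodule.mem_top
  rw [hϖ.maximalIdeal_eq]
  exact Ideal.mem_span_singleton_self ϖ

/-- `d/dϖ` maps `𝒪_v` into `𝒪_v`. -/
theorem exists_D_eq_smul (v : Place K F)
    [Module.Finite v.toValuationSubring Ω[v.toValuationSubring⁄K]]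
    (hres : ∀ u : v.toValuationSubring, ∃ c : K,
      u - algebraMap K v.toValuationSubring c ∈ IsLocalRing.maximalIdeal v.toValuationSubring)
    (ϖ : v.toValuationSubring) (hϖ : Irreducible ϖ) (u : v.toValuationSubring) :
    ∃ a : v.toValuationSubring, D K F (u : F) = (a : F) • D K F (ϖ : F) := by
  have hmem : D K v.toValuationSubring u ∈
      Submodule.span v.toValuationSubring {D K v.toValuationSubring ϖ} := by
    rw [span_D_irreducible_eq_top v hres ϖ hϖ]; trivial
  obtain ⟨a, ha⟩ := Submodule.mem_span_singleton.mp hmem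
  refine ⟨a, ?_⟩
  have h := congrArg (KaehlerDifferential.map K K v.toValuationSubring F) ha
  rw [map_smul, KaehlerDifferential.map_D, KaehlerDifferential.map_D] at h
  exact h.symm.trans (algebraMap_smul F a _).symm

/-- An element of order one is (the coercion of) an irreducible element of the valuation ring. -/
theorem exists_irreducible_of_ord_eq_one (v : Place K F) {π : F} (hπ : v.ord π = 1) :
    ∃ ϖ : v.toValuationSubring, Irreducible ϖ ∧ (ϖ : F) = π := by
  have hπ0 : π ≠ 0 := by
    rintro rfl
    simp at hπ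
  obtain ⟨ϖ, hϖ⟩ := IsDiscreteValuationRing.exists_irreducible v.toValuationSubring
  obtain ⟨u, hu⟩ := v.exists_unit_mul_zpow hπ0 hϖ
  rw [hπ, zpow_one] at hu
  exact ⟨u * ϖ, (irreducible_units_mul u).mpr hϖ, by rw [hu]; rfl⟩

/-- Residue field `K`, in maximal-ideal form. -/
theorem sub_mem_maximalIdeal_of_residue (v : Place K F)
    (hres : ∀ f ∈ v.toValuationSubring,
      ∃ c : K, f = algebraMap K F c ∨ 0 < v.ord (f - algebraMap K F c))
    (u : v.toValuationSubring) : ∃ c : K,
      u - algebraMap K v.toValuationSubring c ∈ IsLocalRing.maximalIdeal v.toValuationSubring := by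
  obtain ⟨c, hc⟩ := hres u u.2
  refine ⟨c, ?_⟩
  rcases hc with hc | hc
  · have : u - algebraMap K v.toValuationSubring c = 0 := by
      apply Subtype.ext
      push_cast
      rw [hc]
      simp
    rw [this]
    exact Ideal.zero_mem _
  · rw [IsLocalRing.mem_maximalIdeal, mem_nonunits_iff]
    intro hunit
    have h0 := v.ord_coe_unit hunit.unit
    rw [IsUnit.unit_spec] at h0
    have hcoe : ((u - algebraMap K v.toValuationSubring c : v.toValuationSubring) : F)
        = (u : F) - algebraMap K F c := rfl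
    rw [hcoe] at h0
    omega

/-- Core of (D4): `ord_v (dy/dπ) = ord_v y - 1` when `ord_v y ≠ 0`, `ord_v π = 1`. -/
theorem ord_coeff_core [CharZero K] (v : Place K F)
    [Module.Finite v.toValuationSubring Ω[v.toValuationSubring⁄K]]
    (hres : ∀ f ∈ v.toValuationSubring,
      ∃ c : K, f = algebraMap K F c ∨ 0 < v.ord (f - algebraMap K F c))
    (π y c : F) (hπ : v.ord π = 1) (hy : v.ord y ≠ 0) (hDπ : D K F π ≠ 0)
    (h : D K F y = c • D K F π) : v.ord c = v.ord y - 1 := by
  obtain ⟨ϖ, hϖ, rfl⟩ := exists_irreducible_of_ord_eq_one v hπ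
  have hres' := sub_mem_maximalIdeal_of_residue v hres
  have hϖ0 : (ϖ : F) ≠ 0 := by
    intro h0
    rw [h0] at hπ
    simp at hπ
  have hy0 : y ≠ 0 := by
    rintro rfl
    simp at hy
  set m : ℤ := v.ord y with hm
  obtain ⟨u, hu⟩ := v.exists_unit_mul_zpow hy0 hϖ
  obtain ⟨a, ha⟩ := exists_D_eq_smul v hres' ϖ hϖ (u : v.toValuationSubring)
  have hmK : (m : K) ≠ 0 := by exact_mod_cast hy
  have hmunit : IsUnit ((m : ℤ) : v.toValuationSubring) := by
    have : ((m : ℤ) : v.toValuationSubring) = algebraMap K v.toValuationSubring (m : K) := by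
      rw [map_intCast]
    rw [this]
    exact (IsUnit.mk0 _ hmK).map _
  have hwunit : IsUnit ((u : v.toValuationSubring) * (m : v.toValuationSubring) + ϖ * a) := by
    by_contra hnot
    have h1 : (u : v.toValuationSubring) * (m : v.toValuationSubring) + ϖ * a ∈
        IsLocalRing.maximalIdeal v.toValuationSubring := by
      rwa [IsLocalRing.mem_maximalIdeal, mem_nonunits_iff]
    have h2 : ϖ * a ∈ IsLocalRing.maximalIdeal v.toValuationSubring :=
      Ideal.mul_mem_right _ _ (by
        rw [hϖ.maximalIdeal_eq]; exact Ideal.mem_span_singleton_self ϖ)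
    have h3 : (u : v.toValuationSubring) * (m : v.toValuationSubring) ∈
        IsLocalRing.maximalIdeal v.toValuationSubring := by
      have := Ideal.sub_mem _ h1 h2
      simpa using this
    rw [IsLocalRing.mem_maximalIdeal, mem_nonunits_iff] at h3
    exact h3 (u.isUnit.mul hmunit)
  have hDy : D K F y = ((((hwunit.unit : v.toValuationSubringˣ) : v.toValuationSubring) : F)
      * (ϖ : F) ^ (m - 1)) • D K F (ϖ : F) := by
    rw [IsUnit.unit_spec]
    conv_lhs => rw [hu]
    rw [Derivation.leibniz, Derivation.leibniz_zpow, ha]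
    have hz : ∀ ω : Ω[F⁄K], (m : ℤ) • ω = ((m : ℤ) : F) • ω := fun ω =>
      (Int.cast_smul_eq_zsmul F m ω).symm
    rw [hz]
    simp only [smul_smul]
    rw [← add_smul]
    congr 1
    have hpow : (ϖ : F) ^ m = (ϖ : F) * (ϖ : F) ^ (m - 1) := by
      rw [← zpow_one_add₀ hϖ0]; congr 1; ring
    rw [hpow]
    push_cast
    ring
  rw [h] at hDy
  have hc : c = (((hwunit.unit : v.toValuationSubringˣ) : v.toValuationSubring) : F)
      * (ϖ : F) ^ (m - 1) := by
    have h0 : (c - (((hwunit.unit : v.toValuationSubringˣ) : v.toValuationSubring) : F)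
      * (ϖ : F) ^ (m - 1)) • D K F (ϖ : F) = 0 := by
      rw [sub_smul, hDy, sub_self]
    rcases smul_eq_zero.mp h0 with h1 | h1
    · exact sub_eq_zero.mp h1
    · exact absurd h1 hDπ
  rw [hc, v.ord_unit_smul_zpow hwunit.unit hϖ (m - 1)]

/-- (D4) in terms of a finitely generated local model and residue field `K`. -/
theorem ord_coeff_of_model [CharZero K] (x : F) [FiniteDimensional K⟮x⟯ F] (v : Place K F)
    (hres : ∀ f ∈ v.toValuationSubring,
      ∃ c : K, f = algebraMap K F c ∨ 0 < v.ord (f - algebraMap K F c))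
    (hmodel : ∃ G : Finset F, (∀ g ∈ G, g ∈ v.toValuationSubring) ∧
      ∀ f ∈ v.toValuationSubring, ∃ b ∈ Algebra.adjoin K (G : Set F),
        ∃ s ∈ Algebra.adjoin K (G : Set F), s ≠ 0 ∧ v.ord s = 0 ∧ f = b / s)
    (π y c : F) (hπ : v.ord π = 1) (hy : v.ord y ≠ 0)
    (h : D K F y = c • D K F π) : v.ord c = v.ord y - 1 := by
  have hess : Algebra.EssFiniteType K v.toValuationSubring := essFiniteType_of_model v hmodel
  have hfin : Module.Finite v.toValuationSubring Ω[v.toValuationSubring⁄K] := inferInstance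
  have hDπ : D K F π ≠ 0 := D_ne_zero_of_ord_ne_zero x v (by rw [hπ]; exact one_ne_zero)
  exact ord_coeff_core v hres π y c hπ hy hDπ h

end Fermat.Agent.S24.DiffCore
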