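import Mathlib
import Fermat.Agent.S24.PlacesInt
import Fermat.Agent.S24.Alg.DiffCore

set_option autoImplicit false

open AlgebraicCurve IsDedekindDomain IntermediateField

namespace Fermat.Agent.S24.FgModel

variable {K F : Type*} [Field K] [Field F] [Algebra K F]

section Abstract

variable {B : Type*} [CommRing B] [IsDedekindDomain B] [Algebra B F] [IsFractionRing B F]
  (hK : ∀ a : K, ∃ b : B, algebraMap B F b = algebraMap K F a) (P : HeightOneSpectrum B)

theorem exists_mul_eq_of_mem (f : F) (hf : f ∈ (Places.ofPrime hK P).toValuationSubring) :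
    ∃ b s : B, s ∉ P.asIdeal ∧ f * algebraMap B F s = algebraMap B F b := by
  rw [Places.ofPrime_toValuationSubring,
    ← HeightOneSpectrum.valuationSubringAtPrime_eq_valuationSubring] at hf
  obtain ⟨a, s, hs, rfl⟩ := hf
  refine ⟨a, s, hs, ?_⟩
  have hs0 : algebraMap B F s ≠ 0 := by
    intro h0
    have : s = 0 := (IsFractionRing.injective B F) (by rw [h0, map_zero])
    exact hs (this ▸ P.asIdeal.zero_mem)
  rw [mul_assoc, inv_mul_cancel₀ hs0, mul_one]

theorem exists_fg_model_ofPrime {A : Type*} [CommRing A] [Algebra K A] [Algebra A B] [Algebra A F]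
    [IsScalarTower A B F] [Module.Finite A B] (t : F)
    (hA : ∀ a : A, algebraMap A F a ∈ Algebra.adjoin K ({t} : Set F))
    (ht : t ∈ (Places.ofPrime hK P).toValuationSubring)
    (hB : ∀ b : B, algebraMap B F b ∈ (Places.ofPrime hK P).toValuationSubring) :
    ∃ G : Finset F, (∀ g ∈ G, g ∈ (Places.ofPrime hK P).toValuationSubring) ∧
      ∀ f ∈ (Places.ofPrime hK P).toValuationSubring, ∃ b ∈ Algebra.adjoin K (G : Set F),
        ∃ s ∈ Algebra.adjoin K (G : Set F),
          s ≠ 0 ∧ (Places.ofPrime hK P).ord s = 0 ∧ f = b / s := by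
  classical
  obtain ⟨S, hS⟩ := (Module.Finite.fg_top : (⊤ : Submodule A B).FG)
  let G : Finset F := insert t (S.image (algebraMap B F))
  have hGmem : ∀ g ∈ G, g ∈ (Places.ofPrime hK P).toValuationSubring := by
    intro g hg
    rcases Finset.mem_insert.mp hg with rfl | hg
    · exact ht
    · obtain ⟨b, -, rfl⟩ := Finset.mem_image.mp hg
      exact hB b
  have hBadj : ∀ b : B, algebraMap B F b ∈ Algebra.adjoin K (G : Set F) := by
    intro b
    have hb : b ∈ Submodule.span A (S : Set B) := by rw [hS]; trivial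
    induction hb using Submodule.span_induction with
    | mem b hb =>
      apply Algebra.subset_adjoin
      simp only [G, Finset.coe_insert, Finset.coe_image]
      exact Set.mem_insert_of_mem _ (Set.mem_image_of_mem _ hb)
    | zero => rw [map_zero]; exact Subalgebra.zero_mem _
    | add a b _ _ ha hb => rw [map_add]; exact Subalgebra.add_mem _ ha hb
    | smul a b _ hb =>
      rw [Algebra.smul_def, map_mul, ← IsScalarTower.algebraMap_apply]
      refine Subalgebra.mul_mem _ (Algebra.adjoin_mono ?_ (hA a)) hb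
      simp [G]
  refine ⟨G, hGmem, fun f hf => ?_⟩
  obtain ⟨b, s, hs, hfs⟩ := exists_mul_eq_of_mem hK P f hf
  have hs0 : s ≠ 0 := fun h0 => hs (h0 ▸ P.asIdeal.zero_mem)
  have hs0' : algebraMap B F s ≠ 0 := by
    intro h0
    exact hs0 ((IsFractionRing.injective B F) (by rw [h0, map_zero]))
  refine ⟨algebraMap B F b, hBadj b, algebraMap B F s, hBadj s, hs0', ?_, eq_div_of_mul_eq hs0' hfs⟩
  have h1 : ¬ 0 < (Places.ofPrime hK P).ord (algebraMap B F s) := by
    rw [Places.ord_pos_iff_mem hK P hs0]; exact hs
  have h2 : 0 ≤ (Places.ofPrime hK P).ord (algebraMap B F s) :=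
    (Places.mem_iff_ord_nonneg _ hs0').mp (hB s)
  omega

end Abstract

section Specific

variable [CharZero K]

attribute [local instance] Places.isDedekindDomain_intRing Places.isFractionRing_intRing
  Places.finite_intRing

set_option synthInstance.maxHeartbeats 400000 in
set_option maxHeartbeats 1600000 in
theorem exists_fg_model_of_mem (t : F) [FiniteDimensional K⟮t⟯ F] (v : Place K F)
    (ht : t ∈ v.toValuationSubring) :
    ∃ G : Finset F, (∀ g ∈ G, g ∈ v.toValuationSubring) ∧
      ∀ f ∈ v.toValuationSubring, ∃ b ∈ Algebra.adjoin K (G : Set F),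
        ∃ s ∈ Algebra.adjoin K (G : Set F), s ≠ 0 ∧ v.ord s = 0 ∧ f = b / s := by
  obtain ⟨P, rfl⟩ := Places.exists_prime_of_mem (K := K) t v ht
  exact exists_fg_model_ofPrime (A := Places.polyRing (K := K) t) (B := Places.intRing (K := K) t)
    (Places.hK t) P t (fun a => a.2) ht (fun b => Places.intRing_le t _ ht b)

/-- Finitely generated model of the local ring of a place (skeleton statement of A1). -/
theorem exists_fg_model (x : F) [FiniteDimensional K⟮x⟯ F] (hx : Transcendental K x)
    (v : Place K F) :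
    ∃ G : Finset F, (∀ g ∈ G, g ∈ v.toValuationSubring) ∧
      ∀ f ∈ v.toValuationSubring, ∃ b ∈ Algebra.adjoin K (G : Set F),
        ∃ s ∈ Algebra.adjoin K (G : Set F), s ≠ 0 ∧ v.ord s = 0 ∧ f = b / s := by
  rcases v.toValuationSubring.mem_or_inv_mem x with h | h
  · exact exists_fg_model_of_mem x v h
  · have hx' : Transcendental K x⁻¹ := fun halg => hx (inv_inv x ▸ halg.inv)
    have : FiniteDimensional K⟮x⁻¹⟯ F :=
      DiffCore.finiteDimensional_adjoin_of_transcendental x x⁻¹ hx'
    exact exists_fg_model_of_mem x⁻¹ v h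

end Specific

end Fermat.Agent.S24.FgModel
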