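/-
S24 piece A1 (PLACES), adapter file: the names of the team skeleton that are not already declared
in the landed files `Places.lean`, `PlacesInt.lean`, `PlacesMore.lean` (same namespace
`Fermat.Agent.S24.Places`).  Already there with the skeleton statements: `mem_iff_ord_nonneg`,
`ord_algebraMap`.  `sum_ord_zeros y hy` is the conjunction `finite ∧ sum`; the sum alone is
`finsum_ord_zeros` below.
-/
import Fermat.Agent.S24.Defs
import Fermat.Agent.S24.PlacesMore
import Fermat.Agent.S24.Alg.FgModel

set_option autoImplicit false

noncomputable section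

open AlgebraicCurve IntermediateField

namespace Fermat.Agent.S24.Places

variable {K F : Type*} [Field K] [Field F] [Algebra K F]

/-! ### Elementary facts on `Place.ord` (no hypothesis on `F/K`) -/

theorem ord_add_ge (v : Place K F) {f g : F} (hf : f ≠ 0) (hg : g ≠ 0) (hfg : f + g ≠ 0) :
    min (v.ord f) (v.ord g) ≤ v.ord (f + g) := by
  have h := v.adicValuation.map_add f g
  have hf' := v.adicValuation_ne_zero hf
  have hg' := v.adicValuation_ne_zero hg
  have hfg' := v.adicValuation_ne_zero hfg
  simp only [Place.ord]
  rcases le_max_iff.mp h with h1 | h1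
  · have := (WithZero.log_le_log hfg' hf').mpr h1
    rw [min_le_iff]
    left
    omega
  · have := (WithZero.log_le_log hfg' hg').mpr h1
    rw [min_le_iff]
    right
    omega

theorem ord_add_eq_of_lt (v : Place K F) {f g : F} (hf : f ≠ 0) (hg : g ≠ 0)
    (h : v.ord f < v.ord g) : v.ord (f + g) = v.ord f := by
  have hf' := v.adicValuation_ne_zero hf
  have hg' := v.adicValuation_ne_zero hg
  have hlt : v.adicValuation g < v.adicValuation f := by
    simp only [Place.ord] at h
    rw [← WithZero.log_lt_log hg' hf']
    omega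
  simp only [Place.ord]
  rw [Valuation.map_add_eq_of_lt_left _ hlt]

theorem exists_uniformizer (v : Place K F) : ∃ π : F, v.ord π = 1 := by
  obtain ⟨ϖ, hϖ⟩ := IsDiscreteValuationRing.exists_irreducible v.toValuationSubring
  exact ⟨(ϖ : F), v.ord_coe_irreducible hϖ⟩

theorem ord_neg (v : Place K F) (f : F) : v.ord (-f) = v.ord f := by
  simp only [Place.ord, Valuation.map_neg]

theorem ord_pow (v : Place K F) (f : F) (n : ℕ) : v.ord (f ^ n) = n * v.ord f := by
  have h := v.ord_zpow f (n : ℤ)
  rwa [zpow_natCast] at h

/-- A place is determined by the sign of `ord`. -/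
theorem ext_of_ord_nonneg {v w : Place K F}
    (h : ∀ f : F, f ≠ 0 → (0 ≤ v.ord f ↔ 0 ≤ w.ord f)) : v = w := by
  apply Place.ext
  ext f
  rcases eq_or_ne f 0 with rfl | hf
  · simp only [zero_mem]
  · rw [mem_iff_ord_nonneg v hf, mem_iff_ord_nonneg w hf]
    exact h f hf

/-! ### Function fields of one variable over an algebraically closed field of char. 0 -/

variable [IsAlgClosed K] [CharZero K]

omit [CharZero K] in
/-- The residue field of every place is `K`. -/
theorem exists_sub_ord_pos (x : F) [FiniteDimensional K⟮x⟯ F] (_hx : Transcendental K x)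
    (v : Place K F) (f : F) (hf : f ∈ v.toValuationSubring) :
    ∃ c : K, f = algebraMap K F c ∨ 0 < v.ord (f - algebraMap K F c) :=
  residue x v hf

omit [CharZero K] in
theorem deg_eq_one (x : F) [FiniteDimensional K⟮x⟯ F] (_hx : Transcendental K x)
    (v : Place K F) : v.deg = 1 :=
  deg_one x v

/-- **Fundamental identity**: the zero divisor of `y` has degree `[F : K(y)]`. -/
theorem finite_zeros (y : F) [FiniteDimensional K⟮y⟯ F] (hy : Transcendental K y) :
    {v : Place K F | 0 < v.ord y}.Finite :=
  (sum_ord_zeros y hy).1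

theorem finsum_ord_zeros (y : F) [FiniteDimensional K⟮y⟯ F] (hy : Transcendental K y) :
    ∑ᶠ v ∈ {v : Place K F | 0 < v.ord y}, v.ord y = (Module.finrank K⟮y⟯ F : ℤ) :=
  (sum_ord_zeros y hy).2

omit [IsAlgClosed K] in
/-- Finitely generated model of the local ring of a place: every element of `𝒪_v` is a quotient
`b / s` of elements of a finitely generated `K`-subalgebra contained in `𝒪_v`, with `s` a unit
at `v`. -/
theorem exists_fg_model (x : F) [FiniteDimensional K⟮x⟯ F] (hx : Transcendental K x)
    (v : Place K F) :
    ∃ G : Finset F, (∀ g ∈ G, g ∈ v.toValuationSubring) ∧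
      ∀ f ∈ v.toValuationSubring, ∃ b ∈ Algebra.adjoin K (G : Set F),
        ∃ s ∈ Algebra.adjoin K (G : Set F), s ≠ 0 ∧ v.ord s = 0 ∧ f = b / s :=
  FgModel.exists_fg_model x hx v

end Fermat.Agent.S24.Places

end
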