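/-
S24 piece A3 (LOCALCOUNT): counting the places over a point from a local uniformisation datum.

The proof goes through the abstract orbit theorem `Fermat.Agent.S24.Orbit` (primes of the integral
closure `B` of `K[y]` lying over `(y)` are the orbits of the embeddings) and the dictionary
`Fermat.Agent.S24.PlaceDict` between such primes and the places `v` with `0 < v.ord y`.
-/
import Fermat.Agent.S24.Defs
import Fermat.Agent.S24.Orbit
import Fermat.Agent.S24.PlaceDict

set_option autoImplicit false

noncomputable section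

open AlgebraicCurve IntermediateField WithZero IsDedekindDomain
open scoped IntermediateField.algebraAdjoinAdjoin

namespace Fermat.Agent.S24.LocalCount

section General

/-- Distinct embeddings agreeing on the base field are at most `[L : K]` many. -/
theorem card_le_finrank {K L Ω I : Type*} [Field K] [Field L] [Algebra K L]
    [FiniteDimensional K L] [Algebra.IsSeparable K L] [Field Ω] [Fintype I] (ι : I → L →+* Ω)
    (hι : Function.Injective ι)
    (hagree : ∀ i j (y : K), ι i (algebraMap K L y) = ι j (algebraMap K L y)) :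
    Fintype.card I ≤ Module.finrank K L := by
  classical
  rcases isEmpty_or_nonempty I with hI | ⟨⟨i0⟩⟩
  · rw [Fintype.card_eq_zero]
    exact Nat.zero_le _
  let : Algebra K (AlgebraicClosure Ω) :=
    (((algebraMap Ω (AlgebraicClosure Ω)).comp (ι i0)).comp (algebraMap K L)).toAlgebra
  let σ : I → (L →ₐ[K] AlgebraicClosure Ω) := fun i =>
    { toRingHom := (algebraMap Ω (AlgebraicClosure Ω)).comp (ι i)
      commutes' := fun r => by
        show algebraMap Ω (AlgebraicClosure Ω) (ι i (algebraMap K L r)) =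
          algebraMap Ω (AlgebraicClosure Ω) (ι i0 (algebraMap K L r))
        rw [hagree i i0] }
  have hσ : Function.Injective σ := by
    intro i j hij
    apply hι
    ext x
    have h1 : σ i x = σ j x := by rw [hij]
    exact (algebraMap Ω (AlgebraicClosure Ω)).injective h1
  have h := Fintype.card_le_of_injective σ hσ
  rwa [AlgHom.card] at h

/-- Over an algebraically closed field, algebraic elements are constants. -/
theorem exists_eq_algebraMap_of_isAlgebraic {K F : Type*} [Field K] [Field F] [Algebra K F]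
    [IsAlgClosed K] {y : F} (h : IsAlgebraic K y) : ∃ c : K, y = algebraMap K F c := by
  have hint : IsIntegral K y := h.isIntegral
  have hdeg := IsAlgClosed.degree_eq_one_of_irreducible K (minpoly.irreducible hint)
  have hmon := minpoly.monic hint
  have h0 : Polynomial.aeval y (minpoly K y) = 0 := minpoly.aeval K y
  rw [Polynomial.eq_X_add_C_of_degree_eq_one hdeg, hmon.leadingCoeff, Polynomial.C_1, one_mul,
    map_add, Polynomial.aeval_X, Polynomial.aeval_C] at h0
  exact ⟨-(minpoly K y).coeff 0, by rw [map_neg]; exact eq_neg_of_add_eq_zero_left h0⟩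

end General

variable {K F : Type*} [Field K] [Field F] [Algebra K F] [IsAlgClosed K] [CharZero K]

section Val

variable {Ω : Type*} [Field Ω] (w : Valuation Ω ℤᵐ⁰) (y : F) {I : Type*} (σ : Equiv.Perm I)
  (m : ℕ) (τ : I → F →+* Ω)

omit [CharZero K] in
/-- A valuation datum forces `y` to be transcendental. -/
theorem transcendental_of_val [Nonempty I]
    (w_const : ∀ i (c : K), c ≠ 0 → w (τ i (algebraMap K F c)) = 1)
    (m_pos : 0 < m) (w_y : ∀ i, w (τ i y) = exp (-(m : ℤ))) : Transcendental K y := by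
  intro halg
  obtain ⟨c, rfl⟩ := exists_eq_algebraMap_of_isAlgebraic halg
  obtain ⟨i⟩ := ‹Nonempty I›
  have h := w_y i
  rcases eq_or_ne c 0 with rfl | hc
  · rw [map_zero, map_zero, map_zero] at h
    exact exp_ne_zero h.symm
  · rw [w_const i c hc, ← exp_zero, exp_inj] at h
    omega

/-- **Local count, valuation form.**  Given `#I ≥ [F : K(y)]` distinct embeddings `τ i` of `F`
into a discretely valued field, agreeing on `K(y)`, with `w (τ i y) = exp (-m)`, permuted by `σ`
compatibly with `w`, and such that the values of `w ∘ τ i` are divisible by `m / gcd (m, d)`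
whenever `σ ^ d` fixes `i`: the places of `F` over the zero of `y` are in bijection with the
cycles of `σ`. -/
theorem local_count_val [FiniteDimensional K⟮y⟯ F] [Finite I]
    (hI : Module.finrank K⟮y⟯ F ≤ Nat.card I)
    (τ_injective : Function.Injective τ)
    (τ_const : ∀ i j (c : K), τ i (algebraMap K F c) = τ j (algebraMap K F c))
    (w_const : ∀ i (c : K), c ≠ 0 → w (τ i (algebraMap K F c)) = 1)
    (τ_y : ∀ i j, τ i y = τ j y)
    (m_pos : 0 < m)
    (w_y : ∀ i, w (τ i y) = exp (-(m : ℤ)))
    (w_σ : ∀ i (f : F), w (τ (σ i) f) = w (τ i f))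
    (dvd : ∀ i (d : ℕ), (σ ^ d) i = i → ∀ f : F, f ≠ 0 →
      ((m / Nat.gcd m d : ℕ) : ℤ) ∣ log (w (τ i f))) :
    Module.finrank K⟮y⟯ F = Nat.card I ∧
    Nat.card {v : Place K F // 0 < v.ord y} = cyc σ ∧
    ∀ v : Place K F, 0 < v.ord y → v.ord y ≤ m := by
  classical
  have := Fintype.ofFinite I
  have hpos : 0 < Module.finrank K⟮y⟯ F := Module.finrank_pos
  have hne : Nonempty I := by
    have h1 : 0 < Nat.card I := lt_of_lt_of_le hpos hI
    exact (Nat.card_pos_iff.mp h1).1
  have hy := transcendental_of_val w y m τ w_const m_pos w_y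
  have hy0 : y ≠ 0 := fun h0 => hy (h0 ▸ isAlgebraic_zero)
  have hPIR : IsPrincipalIdealRing (Algebra.adjoin K {y}) :=
    PlaceDict.isPrincipalIdealRing_adjoin K y
  have hchar : CharZero F := charZero_of_injective_algebraMap (algebraMap K F).injective
  have hsep : Algebra.IsSeparable K⟮y⟯ F := inferInstance
  -- the embeddings agree on `K(y)`
  have hagree : ∀ i j (z : K⟮y⟯), τ i (algebraMap K⟮y⟯ F z) = τ j (algebraMap K⟮y⟯ F z) := by
    intro i j z
    obtain ⟨z, hz⟩ := z
    show τ i z = τ j z
    induction hz using IntermediateField.adjoin_induction with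
    | mem x hx =>
      rw [Set.mem_singleton_iff] at hx
      rw [hx]
      exact τ_y i j
    | algebraMap c => exact τ_const i j c
    | add a b _ _ ha hb => rw [map_add, map_add, ha, hb]
    | inv a _ ha => rw [map_inv₀, map_inv₀, ha]
    | mul a b _ _ ha hb => rw [map_mul, map_mul, ha, hb]
  have hcard : Fintype.card I = Module.finrank K⟮y⟯ F :=
    le_antisymm (card_le_finrank τ τ_injective hagree) (by rwa [Nat.card_eq_fintype_card] at hI)
  -- `w ≤ 1` on `K[y]`
  have hA : ∀ i (a : Algebra.adjoin K {y}),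
      w (τ i (algebraMap (Algebra.adjoin K {y}) F a)) ≤ 1 := by
    intro i a
    obtain ⟨a, ha⟩ := a
    show w (τ i a) ≤ 1
    induction ha using Algebra.adjoin_induction with
    | mem x hx =>
      rw [Set.mem_singleton_iff] at hx
      rw [hx, w_y i, ← exp_zero, exp_le_exp]
      omega
    | algebraMap c =>
      rcases eq_or_ne c 0 with rfl | hc
      · simp
      · exact (w_const i c hc).le
    | add a b _ _ ha hb =>
      rw [map_add]
      exact le_trans (w.map_add _ _) (max_le ha hb)
    | mul a b _ _ ha hb =>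
      rw [map_mul, map_mul]
      exact mul_le_one' ha hb
  have hw : ∀ i, w (τ i (algebraMap (Algebra.adjoin K {y}) F (PlaceDict.gen K y))) =
      exp (-(m : ℤ)) := fun i => w_y i
  have hw1 : ∀ i, w (τ i (algebraMap (Algebra.adjoin K {y}) F (PlaceDict.gen K y))) < 1 := by
    intro i
    rw [hw i, ← exp_zero, exp_lt_exp]
    omega
  have hmax := PlaceDict.span_gen_isMaximal hy
  have hgen0 := PlaceDict.gen_ne_zero hy
  have hf : ∀ P : Ideal (integralClosure (Algebra.adjoin K {y}) F), P.IsPrime →
      P.LiesOver (Ideal.span {PlaceDict.gen K y}) → P.inertiaDeg (Algebra.adjoin K {y}) = 1 :=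
    fun P hP1 hP2 => PlaceDict.inertiaDeg_eq_one (Ideal.span {PlaceDict.gen K y}) P
      (PlaceDict.exists_sub_mem_span_gen K y)
  -- invariance under the cyclic group
  have hzpow : ∀ (n : ℤ) (i : I) (f : F), w (τ ((σ ^ n) i) f) = w (τ i f) := by
    intro n
    induction n using Int.induction_on with
    | zero => intro i f; simp
    | succ n ih =>
      intro i f
      rw [zpow_add_one, Equiv.Perm.mul_apply, ih, w_σ]
    | pred n ih =>
      intro i f
      rw [zpow_sub_one, Equiv.Perm.mul_apply, ih]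
      have h := w_σ (σ⁻¹ i) f
      have h2 : σ (σ⁻¹ i) = i := by simp
      rw [h2] at h
      exact h.symm
  have hinv : ∀ (g : Subgroup.zpowers σ) (i : I) (f : F), w (τ (g • i) f) = w (τ i f) := by
    rintro ⟨g, hg⟩ i f
    obtain ⟨n, rfl⟩ := Subgroup.mem_zpowers_iff.mp hg
    exact hzpow n i f
  have hdiv : ∀ i : I, ∃ c : ℕ, m ∣ c * (MulAction.orbit (Subgroup.zpowers σ) i).ncard ∧
      ∀ f : F, f ≠ 0 → (c : ℤ) ∣ log (w (τ i f)) := by
    intro i
    have hs : (MulAction.orbit (Subgroup.zpowers σ) i).ncard =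
        Function.minimalPeriod (σ • ·) i := by
      rw [MulAction.minimalPeriod_eq_card, ← Nat.card_eq_fintype_card, Nat.card_coe_set_eq]
    set s := Function.minimalPeriod (σ • ·) i with hs_def
    have hfix : (σ ^ s) i = i :=
      (MulAction.pow_smul_eq_iff_minimalPeriod_dvd (a := σ) (b := i) (n := s)).mpr dvd_rfl
    refine ⟨m / Nat.gcd m s, ?_, dvd i s hfix⟩
    rw [hs]
    obtain ⟨a, ha⟩ := Nat.gcd_dvd_left m s
    obtain ⟨b, hb⟩ := Nat.gcd_dvd_right m s
    have hg : 0 < Nat.gcd m s := Nat.gcd_pos_of_pos_left s m_pos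
    have hga : m / Nat.gcd m s = a := Nat.div_eq_of_eq_mul_right hg ha
    refine ⟨b, ?_⟩
    rw [hga]
    calc a * s = a * (Nat.gcd m s * b) := congrArg (a * ·) hb
      _ = Nat.gcd m s * a * b := by ring
      _ = m * b := by rw [← ha]
  refine ⟨by rw [Nat.card_eq_fintype_card, hcard], ?_, ?_⟩
  · rw [PlaceDict.card_zeros_eq_card_primesOver hy]
    exact Orbit.card_primesOver_eq_card_orbits (K := K⟮y⟯) w τ τ_injective hcard hagree hA
      (PlaceDict.gen K y) hmax hgen0 m m_pos hw hf hinv hdiv
  · intro v hv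
    have hB : ∀ b : integralClosure (Algebra.adjoin K {y}) F,
        algebraMap (integralClosure (Algebra.adjoin K {y}) F) F b ∈ v.toValuationSubring :=
      fun b => PlaceDict.integralClosure_mem_of_mem v (PlaceDict.mem_of_ord_pos v hv) b
    have hDed : IsDedekindDomain (integralClosure (Algebra.adjoin K {y}) F) :=
      IsIntegralClosure.isDedekindDomain (Algebra.adjoin K {y}) K⟮y⟯ F _
    have hfrac : IsFractionRing (integralClosure (Algebra.adjoin K {y}) F) F :=
      IsIntegralClosure.isFractionRing_of_finite_extension (Algebra.adjoin K {y}) K⟮y⟯ F _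
    have hP1 := PlaceDict.primeUnder_isPrime v hB
    have hP2 := PlaceDict.primeUnder_liesOver hy v hv hB
    have hPne : PlaceDict.primeUnder v hB ≠ ⊥ := fun h0 =>
      PlaceDict.algebraMap_gen_ne_zero hy
        ((Ideal.mem_bot).mp (h0 ▸ PlaceDict.algebraMap_gen_mem_primeUnder v hv hB))
    have hint := Orbit.val_le_one_of_mem (B := integralClosure (Algebra.adjoin K {y}) F) w τ hA
    obtain ⟨i, hi⟩ := Orbit.exists_primeOf_eq (K := K⟮y⟯) w τ hint τ_injective hcard hagree
      (PlaceDict.gen K y) hgen0 hw1 (PlaceDict.primeUnder v hB)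
    let vP : HeightOneSpectrum (integralClosure (Algebra.adjoin K {y}) F) :=
      ⟨PlaceDict.primeUnder v hB, hP1, hPne⟩
    have hval := PlaceDict.valuationSubring_eq' v hB vP rfl
    have hle : ∀ f : F, f ∈ v.toValuationSubring → w (τ i f) ≤ 1 := by
      intro f hf
      refine Orbit.val_le_one_of_valuation_le_one w τ hint i vP hi f ?_
      rw [← hval] at hf
      exact hf
    obtain ⟨π, hπ⟩ := IsDiscreteValuationRing.exists_irreducible v.toValuationSubring
    obtain ⟨u, hu⟩ := v.exists_unit_mul_zpow hy0 hπ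
    have hu1 : w (τ i ((u : v.toValuationSubring) : F)) = 1 := by
      have h1 := hle _ (u : v.toValuationSubring).2
      have h2 := hle _ ((u⁻¹ : v.toValuationSubringˣ) : v.toValuationSubring).2
      have h3 : ((u : v.toValuationSubring) : F) *
          (((u⁻¹ : v.toValuationSubringˣ) : v.toValuationSubring) : F) = 1 :=
        congrArg Subtype.val u.mul_inv
      have h4 : w (τ i ((u : v.toValuationSubring) : F)) *
          w (τ i (((u⁻¹ : v.toValuationSubringˣ) : v.toValuationSubring) : F)) = 1 := by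
        rw [← map_mul, ← map_mul, h3, map_one, map_one]
      refine le_antisymm h1 ?_
      by_contra hlt
      push Not at hlt
      have h5 : w (τ i ((u : v.toValuationSubring) : F)) *
          w (τ i (((u⁻¹ : v.toValuationSubringˣ) : v.toValuationSubring) : F)) < 1 :=
        calc _ ≤ w (τ i ((u : v.toValuationSubring) : F)) * 1 := by gcongr
          _ < 1 := by rwa [mul_one]
      rw [h4] at h5
      exact lt_irrefl _ h5
    have hπF : (π : F) ≠ 0 := by
      intro h0
      exact hπ.ne_zero (Subtype.ext h0)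
    have hwπ0 : w (τ i (π : F)) ≠ 0 := by
      rw [Valuation.ne_zero_iff]
      exact (map_ne_zero _).mpr hπF
    have h5 : w (τ i (π : F)) ≤ 1 := hle _ π.2
    rw [← exp_log hwπ0, ← exp_zero, exp_le_exp] at h5
    have h6 := w_y i
    rw [hu, map_mul, map_mul, hu1, one_mul, map_zpow₀, map_zpow₀] at h6
    have h7 := congrArg log h6
    rw [log_zpow, log_exp, smul_eq_mul] at h7
    set t := log (w (τ i (π : F))) with ht_def
    have ht : t ≤ -1 := by
      by_contra hcon
      have ht0 : t = 0 := by omega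
      rw [ht0, mul_zero] at h7
      omega
    nlinarith [mul_le_mul_of_nonneg_left (show (1 : ℤ) ≤ -t by omega) hv.le]

end Val

section Laurent

variable {L : Type*} [Field L]

/-- The valuation of a nonzero Laurent series is `exp (-order)`. -/
theorem laurent_valuation_eq (g : LaurentSeries L) (hg : g ≠ 0) :
    (Valued.v g : ℤᵐ⁰) = exp (-g.order) := by
  have h0 : (Valued.v g : ℤᵐ⁰) ≠ 0 := (Valuation.ne_zero_iff _).mpr hg
  have h1 : (Valued.v g : ℤᵐ⁰) ≤ exp (-g.order) :=
    (LaurentSeries.valuation_le_iff_coeff_lt_eq_zero L).mpr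
      (fun n hn => HahnSeries.coeff_eq_zero_of_lt_order hn)
  have h2 : ¬ (Valued.v g : ℤᵐ⁰) ≤ exp (-(g.order + 1)) := by
    intro h
    have h3 := (LaurentSeries.valuation_le_iff_coeff_lt_eq_zero L).mp h g.order (by omega)
    exact hg (HahnSeries.coeff_order_eq_zero.mp h3)
  rw [← exp_log h0] at h1 h2 ⊢
  rw [exp_le_exp] at h1 h2
  rw [exp_inj]
  omega

theorem laurent_log_valuation (g : LaurentSeries L) (hg : g ≠ 0) :
    log (Valued.v g : ℤᵐ⁰) = -g.order := by
  rw [laurent_valuation_eq g hg, log_exp]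

variable (ι : K →+* L) (y : F) {I : Type*} (σ : Equiv.Perm I) (m : ℕ)

omit [IsAlgClosed K] [CharZero K] in
theorem datum_ne_zero (dat : LocalDatum ι y σ m) (i : I) {f : F} (hf : f ≠ 0) :
    dat.τ i f ≠ 0 := (map_ne_zero _).mpr hf

omit [IsAlgClosed K] [CharZero K] in
theorem datum_w_const (dat : LocalDatum ι y σ m) (i : I) (c : K) (hc : c ≠ 0) :
    (Valued.v (dat.τ i (algebraMap K F c)) : ℤᵐ⁰) = 1 := by
  rw [dat.τ_algebraMap]
  have h1 : (HahnSeries.C (ι c) : LaurentSeries L) ≠ 0 :=
    HahnSeries.C_ne_zero ((map_ne_zero ι).mpr hc)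
  rw [laurent_valuation_eq _ h1, HahnSeries.order_C, neg_zero, exp_zero]

omit [IsAlgClosed K] [CharZero K] in
theorem datum_w_y (dat : LocalDatum ι y σ m) (i : I) :
    (Valued.v (dat.τ i y) : ℤᵐ⁰) = exp (-(m : ℤ)) := by
  have h1 : dat.τ i y ≠ 0 := by
    intro h0
    have h2 := dat.order_y i
    rw [h0, HahnSeries.order_zero] at h2
    have := dat.m_pos
    omega
  rw [laurent_valuation_eq _ h1, dat.order_y i]

omit [IsAlgClosed K] [CharZero K] in
theorem datum_ζ_ne_zero (dat : LocalDatum ι y σ m) : dat.ζ ≠ 0 :=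
  dat.ζ_prim.ne_zero dat.m_pos.ne'

omit [IsAlgClosed K] [CharZero K] in
theorem datum_w_σ (dat : LocalDatum ι y σ m) (i : I) (f : F) :
    (Valued.v (dat.τ (σ i) f) : ℤᵐ⁰) = Valued.v (dat.τ i f) := by
  rcases eq_or_ne f 0 with rfl | hf
  · simp
  have h1 := datum_ne_zero ι y σ m dat (σ i) hf
  have h2 := datum_ne_zero ι y σ m dat i hf
  have hζ := datum_ζ_ne_zero ι y σ m dat
  rw [laurent_valuation_eq _ h1, laurent_valuation_eq _ h2, exp_inj, neg_inj]
  apply le_antisymm
  · apply HahnSeries.order_le_of_coeff_ne_zero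
    rw [dat.rot]
    exact mul_ne_zero (zpow_ne_zero _ hζ) (fun h => h2 (HahnSeries.coeff_order_eq_zero.mp h))
  · apply HahnSeries.order_le_of_coeff_ne_zero
    intro h
    have h3 := dat.rot i f (dat.τ (σ i) f).order
    rw [h, mul_zero] at h3
    exact h1 (HahnSeries.coeff_order_eq_zero.mp h3)

omit [IsAlgClosed K] [CharZero K] in
theorem datum_rot_pow (dat : LocalDatum ι y σ m) (d : ℕ) (i : I) (f : F) (k : ℤ) :
    (dat.τ ((σ ^ d) i) f).coeff k = dat.ζ ^ ((d : ℤ) * k) * (dat.τ i f).coeff k := by
  have hζ := datum_ζ_ne_zero ι y σ m dat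
  induction d with
  | zero => simp
  | succ d ih =>
    rw [pow_succ', Equiv.Perm.mul_apply, dat.rot, ih, ← mul_assoc, ← zpow_add₀ hζ]
    congr 2
    push_cast
    ring

omit [IsAlgClosed K] [CharZero K] in
theorem datum_dvd (dat : LocalDatum ι y σ m) (i : I) (d : ℕ) (hd : (σ ^ d) i = i) (f : F)
    (hf : f ≠ 0) :
    ((m / Nat.gcd m d : ℕ) : ℤ) ∣ log (Valued.v (dat.τ i f) : ℤᵐ⁰) := by
  have h2 := datum_ne_zero ι y σ m dat i hf
  rw [laurent_log_valuation _ h2, dvd_neg]
  set k := (dat.τ i f).order with hk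
  have h3 := datum_rot_pow ι y σ m dat d i f k
  rw [hd] at h3
  have hc : (dat.τ i f).coeff k ≠ 0 := fun h => h2 (HahnSeries.coeff_order_eq_zero.mp h)
  have h4 : dat.ζ ^ ((d : ℤ) * k) = 1 := by
    have h5 : (dat.ζ ^ ((d : ℤ) * k) - 1) * (dat.τ i f).coeff k = 0 := by
      rw [sub_mul, one_mul, ← h3, sub_self]
    rcases mul_eq_zero.mp h5 with h6 | h6
    · exact sub_eq_zero.mp h6
    · exact absurd h6 hc
  have h5 : (m : ℤ) ∣ (d : ℤ) * k := (dat.ζ_prim.zpow_eq_one_iff_dvd _).mp h4
  have h6 : m ∣ d * k.natAbs := by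
    have := Int.natAbs_dvd_natAbs.mpr h5
    rwa [Int.natAbs_natCast, Int.natAbs_mul, Int.natAbs_natCast] at this
  have hg : 0 < Nat.gcd m d := Nat.gcd_pos_of_pos_left d dat.m_pos
  have hcop : Nat.Coprime (m / Nat.gcd m d) (d / Nat.gcd m d) := Nat.coprime_div_gcd_div_gcd hg
  have h7 : m / Nat.gcd m d ∣ d / Nat.gcd m d * k.natAbs := by
    obtain ⟨a, ha⟩ := Nat.gcd_dvd_left m d
    obtain ⟨b, hb⟩ := Nat.gcd_dvd_right m d
    have hma : m / Nat.gcd m d = a := Nat.div_eq_of_eq_mul_right hg ha
    have hdb : d / Nat.gcd m d = b := Nat.div_eq_of_eq_mul_right hg hb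
    rw [hma, hdb]
    have h8 : Nat.gcd m d * a ∣ Nat.gcd m d * (b * k.natAbs) := by
      rw [← ha, ← mul_assoc, ← hb]
      exact h6
    exact Nat.dvd_of_mul_dvd_mul_left hg h8
  have h8 : m / Nat.gcd m d ∣ k.natAbs := hcop.dvd_of_dvd_mul_left h7
  exact Int.natCast_dvd.mpr h8

/-- A local (Laurent series) datum forces `y` to be transcendental. -/
theorem transcendental_of_localDatum {L : Type*} [Field L] (ι : K →+* L) (y : F)
    {I : Type*} [Finite I] [Nonempty I] (σ : Equiv.Perm I) (m : ℕ) (dat : LocalDatum ι y σ m) :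
    Transcendental K y :=
  transcendental_of_val (Valued.v : Valuation (LaurentSeries L) ℤᵐ⁰) y m dat.τ
    (datum_w_const ι y σ m dat) dat.m_pos (datum_w_y ι y σ m dat)

/-- Local count for a Laurent series datum. -/
theorem local_count_localDatum {L : Type*} [Field L] (ι : K →+* L) (y : F)
    [FiniteDimensional K⟮y⟯ F]
    {I : Type*} [Finite I] [Nonempty I] (hI : Module.finrank K⟮y⟯ F ≤ Nat.card I)
    (σ : Equiv.Perm I) (m : ℕ) (dat : LocalDatum ι y σ m) :
    Module.finrank K⟮y⟯ F = Nat.card I ∧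
    Nat.card {v : Place K F // 0 < v.ord y} = cyc σ ∧
    ∀ v : Place K F, 0 < v.ord y → v.ord y ≤ m :=
  local_count_val (Valued.v : Valuation (LaurentSeries L) ℤᵐ⁰) y σ m dat.τ hI dat.τ_injective
    (fun i j c => by rw [dat.τ_algebraMap, dat.τ_algebraMap])
    (datum_w_const ι y σ m dat) dat.τ_y dat.m_pos (datum_w_y ι y σ m dat)
    (datum_w_σ ι y σ m dat) (datum_dvd ι y σ m dat)

end Laurent

/-- A datum forces `y` to be transcendental. -/
theorem transcendental_of_datum {Ω : Type*} [Field Ω] (w : Valuation Ω (WithZero (Multiplicative ℤ)))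
    (y : F) {I : Type*} [Finite I] [Nonempty I] (σ : Equiv.Perm I) (m : ℕ)
    (dat : ValDatum K w y σ m) : Transcendental K y :=
  transcendental_of_val w y m dat.τ dat.w_const dat.m_pos dat.w_y

/-- The places over the zero of `y` are in bijection with the cycles of `σ`; the degree of
`F/K(y)` is `#I`; ramification indices are at most `m`. -/
theorem local_count {Ω : Type*} [Field Ω] (w : Valuation Ω (WithZero (Multiplicative ℤ)))
    (y : F) [FiniteDimensional K⟮y⟯ F]
    {I : Type*} [Finite I] [Nonempty I] (hI : Module.finrank K⟮y⟯ F ≤ Nat.card I)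
    (σ : Equiv.Perm I) (m : ℕ) (dat : ValDatum K w y σ m) :
    Module.finrank K⟮y⟯ F = Nat.card I ∧
    Nat.card {v : Place K F // 0 < v.ord y} = cyc σ ∧
    ∀ v : Place K F, 0 < v.ord y → v.ord y ≤ m :=
  local_count_val w y σ m dat.τ hI dat.τ_injective dat.τ_const dat.w_const dat.τ_y dat.m_pos
    dat.w_y dat.w_σ dat.dvd

end Fermat.Agent.S24.LocalCount

end
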