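/-
S24: ramification sums over a point, from a valued uniformisation datum.

`∑_{v | a} (e_v - 1) = n - cyc σ` and `∑_{v | ∞} (-e_v - 1) = -n - cyc σ∞`, obtained from the sum
formulas of `PlacesMore.lean` and the count of `Alg/LocalCount.lean`.
-/
import Fermat.Agent.S24.Alg.LocalCount
import Fermat.Agent.S24.PlacesMore

set_option autoImplicit false

noncomputable section

open AlgebraicCurve IntermediateField

namespace Fermat.Agent.S24.RamSum

variable {K F : Type*} [Field K] [Field F] [Algebra K F] [IsAlgClosed K] [CharZero K]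

/-- `LocalCount.local_count` with the field `K(y)` given up to equality. -/
theorem local_count_of_eq {Ω : Type*} [Field Ω] (w : Valuation Ω (WithZero (Multiplicative ℤ)))
    (y : F) (E : IntermediateField K F) [FiniteDimensional E F] (hE : E = K⟮y⟯)
    {I : Type*} [Finite I] [Nonempty I] (hI : Module.finrank E F ≤ Nat.card I)
    (σ : Equiv.Perm I) (m : ℕ) (dat : ValDatum K w y σ m) :
    Module.finrank E F = Nat.card I ∧
    Nat.card {v : Place K F // 0 < v.ord y} = cyc σ ∧
    ∀ v : Place K F, 0 < v.ord y → v.ord y ≤ m := by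
  subst hE
  exact LocalCount.local_count w y hI σ m dat

omit [IsAlgClosed K] [CharZero K] in
/-- The sum of the constant `1` over a finite set of places. -/
theorem finsum_mem_one_eq (s : Set (Place K F)) (hs : s.Finite) :
    ∑ᶠ v ∈ s, (1 : ℤ) = (Nat.card s : ℤ) := by
  rw [finsum_mem_eq_finite_toFinset_sum _ hs, Finset.sum_const, Nat.card_coe_set_eq,
    Set.ncard_eq_toFinset_card s hs]
  simp

section Zeros

variable {Ω : Type*} [Field Ω] (x : F) [FiniteDimensional K⟮x⟯ F] {I : Type*} [Finite I]
  [Nonempty I]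

/-- The degree of `F / K(x)` is the number of embeddings of any datum over a finite point. -/
theorem finrank_eq_card (hI : Module.finrank K⟮x⟯ F ≤ Nat.card I) (a : K)
    (w : Valuation Ω (WithZero (Multiplicative ℤ))) (σ : Equiv.Perm I) (m : ℕ)
    (dat : ValDatum K w (x - algebraMap K F a) σ m) :
    Module.finrank K⟮x⟯ F = Nat.card I :=
  (local_count_of_eq w (x - algebraMap K F a) K⟮x⟯ (Places.adjoin_sub_eq x a) hI σ m dat).1

omit [FiniteDimensional K⟮x⟯ F] in
/-- `x` is transcendental as soon as there is a datum over a finite point. -/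
theorem transcendental_of_datum_sub (a : K)
    (w : Valuation Ω (WithZero (Multiplicative ℤ))) (σ : Equiv.Perm I) (m : ℕ)
    (dat : ValDatum K w (x - algebraMap K F a) σ m) : Transcendental K x := by
  have h := LocalCount.transcendental_of_datum w (x - algebraMap K F a) σ m dat
  intro halg
  apply h
  exact halg.sub (isAlgebraic_algebraMap (R := K) (A := F) a)

/-- **Ramification sum over a finite point**: `∑_{v | a} (e_v - 1) = n - cyc σ`. -/
theorem sum_zeros (hI : Module.finrank K⟮x⟯ F ≤ Nat.card I) (a : K)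
    (w : Valuation Ω (WithZero (Multiplicative ℤ))) (σ : Equiv.Perm I) (m : ℕ)
    (dat : ValDatum K w (x - algebraMap K F a) σ m) :
    {v : Place K F | 0 < v.ord (x - algebraMap K F a)}.Finite ∧
      ∑ᶠ v ∈ {v : Place K F | 0 < v.ord (x - algebraMap K F a)},
        (v.ord (x - algebraMap K F a) - 1) = (Nat.card I : ℤ) - cyc σ := by
  have hx := transcendental_of_datum_sub x a w σ m dat
  obtain ⟨hfin, hsum⟩ := Places.sum_ord_zeros_sub x hx a
  obtain ⟨h1, h2, -⟩ :=
    local_count_of_eq w (x - algebraMap K F a) K⟮x⟯ (Places.adjoin_sub_eq x a) hI σ m dat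
  refine ⟨hfin, ?_⟩
  rw [finsum_mem_sub_distrib _ _ hfin, hsum, finsum_mem_one_eq _ hfin, h1]
  congr 2

/-- Over a point with `m = 1` all places are unramified. -/
theorem ord_eq_one_of_m_eq_one (hI : Module.finrank K⟮x⟯ F ≤ Nat.card I) (a : K)
    (w : Valuation Ω (WithZero (Multiplicative ℤ))) (σ : Equiv.Perm I) (m : ℕ)
    (dat : ValDatum K w (x - algebraMap K F a) σ m) (hm : m = 1) (v : Place K F)
    (hv : 0 < v.ord (x - algebraMap K F a)) : v.ord (x - algebraMap K F a) = 1 := by
  obtain ⟨-, -, h3⟩ :=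
    local_count_of_eq w (x - algebraMap K F a) K⟮x⟯ (Places.adjoin_sub_eq x a) hI σ m dat
  have := h3 v hv
  rw [hm] at this
  push_cast at this
  omega

/-- **Ramification sum over infinity**: `∑_{v | ∞} (-e_v - 1) = -n - cyc σ∞`. -/
theorem sum_poles (hI : Module.finrank K⟮x⟯ F ≤ Nat.card I) (hx : Transcendental K x)
    (winf : Valuation Ω (WithZero (Multiplicative ℤ))) (σinf : Equiv.Perm I) (minf : ℕ)
    (datinf : ValDatum K winf x⁻¹ σinf minf) :
    {v : Place K F | v.ord x < 0}.Finite ∧
      ∑ᶠ v ∈ {v : Place K F | v.ord x < 0}, (v.ord x - 1) = -(Nat.card I : ℤ) - cyc σinf := by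
  obtain ⟨hfin, hsum⟩ := Places.sum_ord_poles x hx
  obtain ⟨h1, h2, -⟩ :=
    local_count_of_eq winf x⁻¹ K⟮x⟯ (Places.adjoin_inv_eq x) hI σinf minf datinf
  have hset : {v : Place K F | 0 < v.ord x⁻¹} = {v : Place K F | v.ord x < 0} := by
    ext v
    simp only [Set.mem_ofPred_eq, Place.ord_inv]
    omega
  have h2' : Nat.card {v : Place K F | v.ord x < 0} = cyc σinf := by
    rw [← hset]
    exact h2
  refine ⟨hfin, ?_⟩
  rw [finsum_mem_sub_distrib _ _ hfin, hsum, finsum_mem_one_eq _ hfin, h1, h2']

/-- The degree of `F / K(x)` from the datum at infinity. -/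
theorem finrank_eq_card_inf (hI : Module.finrank K⟮x⟯ F ≤ Nat.card I)
    (winf : Valuation Ω (WithZero (Multiplicative ℤ))) (σinf : Equiv.Perm I) (minf : ℕ)
    (datinf : ValDatum K winf x⁻¹ σinf minf) :
    Module.finrank K⟮x⟯ F = Nat.card I :=
  (local_count_of_eq winf x⁻¹ K⟮x⟯ (Places.adjoin_inv_eq x) hI σinf minf datinf).1

end Zeros

end Fermat.Agent.S24.RamSum

end
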