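/-
S24 piece A5 (DIFF): Kähler differentials of a function field of one variable and their orders.

`F/K(x)` is finite separable (char 0), so `Ω[F/K(x)] = 0` and `F ⊗ Ω[K(x)/K] → Ω[F/K]` is
surjective, hence `D x` spans `Ω[F/K]`; it is nonzero because otherwise `F/K` would be formally
unramified, hence separable algebraic.  The same applies to a uniformizer `π`.
KEY LEMMA (`DiffCore.exists_D_eq_smul`): `d/dπ` maps `𝒪_v` to `𝒪_v`, by Nakayama:
`Ω[𝒪_v/K]` is a finite `𝒪_v`-module (`FgModel.exists_fg_model`) and `Ω = 𝒪_v·Dπ + 𝔪·Ω`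
(`Places.residue`).  Then `y = π^e w` with `w` a unit, `∂ y = π^(e-1) (e w + π ∂ w)`,
and `e ≠ 0` in `K`.
-/
import Fermat.Agent.S24.PlacesMore
import Fermat.Agent.S24.Alg.FgModel
import Fermat.Agent.S24.Alg.DiffCore

set_option autoImplicit false

noncomputable section

open AlgebraicCurve IntermediateField KaehlerDifferential

namespace Fermat.Agent.S24.Diff

variable {K F : Type*} [Field K] [Field F] [Algebra K F] [IsAlgClosed K] [CharZero K]

/-- `dx` is nonzero. -/
theorem D_ne_zero (x : F) [FiniteDimensional K⟮x⟯ F] (hx : Transcendental K x) :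
    KaehlerDifferential.D K F x ≠ 0 :=
  DiffCore.D_ne_zero x hx

/-- `dx` spans `Ω[F/K]`. -/
theorem exists_eq_smul_D (x : F) [FiniteDimensional K⟮x⟯ F] (hx : Transcendental K x)
    (ω : Ω[F⁄K]) : ∃ g : F, ω = g • KaehlerDifferential.D K F x :=
  DiffCore.exists_eq_smul_D x ω

/-- The differential of a uniformizer is nonzero. -/
theorem D_uniformizer_ne_zero (x : F) [FiniteDimensional K⟮x⟯ F] (hx : Transcendental K x)
    (v : Place K F) (π : F) (hπ : v.ord π = 1) : KaehlerDifferential.D K F π ≠ 0 :=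
  DiffCore.D_ne_zero_of_ord_ne_zero x v (by rw [hπ]; exact one_ne_zero)

/-- `ord_v (dy / dπ) = ord_v y - 1` whenever `ord_v y ≠ 0` (characteristic zero). -/
theorem ord_coeff (x : F) [FiniteDimensional K⟮x⟯ F] (hx : Transcendental K x)
    (v : Place K F) (π y c : F) (hπ : v.ord π = 1) (hy : v.ord y ≠ 0)
    (h : KaehlerDifferential.D K F y = c • KaehlerDifferential.D K F π) :
    v.ord c = v.ord y - 1 :=
  DiffCore.ord_coeff_of_model x v (fun _ hf => Places.residue x v hf)
    (FgModel.exists_fg_model x hx v) π y c hπ hy h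

end Fermat.Agent.S24.Diff

end
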