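/-
S24 piece A4 (RH), core: Riemann–Hurwitz for a function field `F / K(x)` in terms of the numbers
of places over each branch point.  The inputs from LOCALCOUNT (number of places over `a`,
unramifiedness outside `B`) and DIFF (`ord_v (dy/dπ) = ord_v y - 1`) are hypotheses here;
`Alg/RH.lean` instantiates them.
-/
import Mathlib
import Fermat.Agent.S24.PlacesMore
import Fermat.Agent.S24.Alg.DiffCore

set_option autoImplicit false

noncomputable section

open AlgebraicCurve IntermediateField KaehlerDifferential

namespace Fermat.Agent.S24.RHCore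

variable {K F : Type*} [Field K] [Field F] [Algebra K F]

/-- Access to the uniformizer behind `Place.dCoord`. -/
theorem exists_uniformizer_dCoord (v : Place K F) :
    ∃ π : F, v.ord π = 1 ∧ v.dCoord = D K F π :=
  ⟨_, v.ord_coe_irreducible
    (IsDiscreteValuationRing.exists_irreducible v.toValuationSubring).choose_spec, rfl⟩

/-- A place lies over at most one point of the `x`-line. -/
theorem eq_of_ord_sub_pos (v : Place K F) (x : F) {a b : K}
    (ha : 0 < v.ord (x - algebraMap K F a)) (hb : 0 < v.ord (x - algebraMap K F b)) : a = b := by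
  by_contra hab
  have hxa0 : x - algebraMap K F a ≠ 0 := by
    intro h
    rw [h] at ha
    simp at ha
  have hxb0 : x - algebraMap K F b ≠ 0 := by
    intro h
    rw [h] at hb
    simp at hb
  have hma := Places.mem_of_ord_pos v ha
  have hmb := Places.mem_of_ord_pos v hb
  have hua : (⟨_, hma⟩ : v.toValuationSubring) ∈ IsLocalRing.maximalIdeal v.toValuationSubring :=
    (Places.ord_pos_iff_mem_maximalIdeal v (a := ⟨_, hma⟩)
      (fun h => hxa0 (congrArg Subtype.val h))).mp ha
  have hub : (⟨_, hmb⟩ : v.toValuationSubring) ∈ IsLocalRing.maximalIdeal v.toValuationSubring :=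
    (Places.ord_pos_iff_mem_maximalIdeal v (a := ⟨_, hmb⟩)
      (fun h => hxb0 (congrArg Subtype.val h))).mp hb
  have hsub := Ideal.sub_mem _ hub hua
  have hc : (((⟨_, hmb⟩ : v.toValuationSubring) - ⟨_, hma⟩ : v.toValuationSubring) : F) =
      algebraMap K F (a - b) := by
    show x - algebraMap K F b - (x - algebraMap K F a) = algebraMap K F (a - b)
    rw [map_sub]
    ring
  have hab' : algebraMap K F (a - b) ≠ 0 := by
    rw [Ne, map_eq_zero, sub_eq_zero]
    exact hab
  have hne : ((⟨_, hmb⟩ : v.toValuationSubring) - ⟨_, hma⟩ : v.toValuationSubring) ≠ 0 := by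
    intro h
    apply hab'
    rw [← hc, h]
    rfl
  have hpos := (Places.ord_pos_iff_mem_maximalIdeal v hne).mpr hsub
  rw [hc, Places.ord_algebraMap] at hpos
  exact lt_irrefl _ hpos

section Local

variable [CharZero K]

/-- The differential of the chosen uniformizer spans `Ω[F/K]`. -/
theorem dCoordGenerates (x : F) [FiniteDimensional K⟮x⟯ F] (v : Place K F) :
    v.DCoordGenerates := by
  obtain ⟨π, hπ, hdc⟩ := exists_uniformizer_dCoord v
  have htr : Transcendental K π :=
    DiffCore.transcendental_of_ord_ne_zero v (by rw [hπ]; exact one_ne_zero)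
  have hfin : FiniteDimensional K⟮π⟯ F :=
    DiffCore.finiteDimensional_adjoin_of_transcendental x π htr
  exact ⟨by rw [hdc]; exact DiffCore.span_D_eq_top π⟩

theorem nontrivial_kaehler (x : F) [FiniteDimensional K⟮x⟯ F] (hx : Transcendental K x) :
    Nontrivial Ω[F⁄K] :=
  ⟨⟨D K F x, 0, DiffCore.D_ne_zero x hx⟩⟩

/-- `ordDifferential` of `g • dx`. -/
theorem ordDifferential_smul_D (x : F) [FiniteDimensional K⟮x⟯ F] (hx : Transcendental K x)
    (v : Place K F) {g : F} (hg : g ≠ 0) :
    v.ordDifferential (g • D K F x) = v.ord g + v.ordDifferential (D K F x) := by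
  have h1 := dCoordGenerates x v
  have h2 := nontrivial_kaehler x hx
  apply v.ordDifferential_smul hg
  intro h0
  have h := v.differentialCoeff_smul_dCoord (D K F x)
  rw [h0, zero_smul] at h
  exact DiffCore.D_ne_zero x hx h.symm

/-- Local computation of the order of `dx` from the order of a local coordinate expression. -/
theorem ordDifferential_D_of_coeff (x : F) [FiniteDimensional K⟮x⟯ F] (hx : Transcendental K x)
    (hcoeff : ∀ (v : Place K F) (π y c : F), v.ord π = 1 → v.ord y ≠ 0 →
      D K F y = c • D K F π → v.ord c = v.ord y - 1)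
    (v : Place K F) (y : F) (hy : v.ord y ≠ 0) (hDy : D K F y = D K F x) :
    v.ordDifferential (D K F x) = v.ord y - 1 := by
  have h1 := dCoordGenerates x v
  have h2 := nontrivial_kaehler x hx
  obtain ⟨π, hπ, hdc⟩ := exists_uniformizer_dCoord v
  have h := v.differentialCoeff_smul_dCoord (D K F x)
  rw [hdc] at h
  rw [Place.ordDifferential]
  exact hcoeff v π y _ hπ hy (by rw [hDy]; exact h.symm)

omit [CharZero K] in
theorem D_sub_algebraMap (x : F) (a : K) : D K F (x - algebraMap K F a) = D K F x := by
  rw [map_sub, Derivation.map_algebraMap, sub_zero]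

end Local

section Global

variable [IsAlgClosed K] [CharZero K]

omit [CharZero K] in
/-- Every place lies over a point of the affine `x`-line or over infinity. -/
theorem exists_ord_sub_pos_or (x : F) [FiniteDimensional K⟮x⟯ F] (hx : Transcendental K x)
    (v : Place K F) : (∃ a : K, 0 < v.ord (x - algebraMap K F a)) ∨ v.ord x < 0 := by
  have hx0 : x ≠ 0 := fun h => hx (h ▸ isAlgebraic_zero)
  by_cases hmem : x ∈ v.toValuationSubring
  · left
    obtain ⟨c, hc | hc⟩ := Places.residue x v hmem
    · exact absurd (hc ▸ isAlgebraic_algebraMap c) hx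
    · exact ⟨c, hc⟩
  · right
    rw [Places.mem_iff_ord_nonneg v hx0] at hmem
    omega

omit [IsAlgClosed K] [CharZero K] in
theorem ord_nonneg_of_ord_sub_pos (x : F) (hx0 : x ≠ 0) (v : Place K F) {a : K}
    (ha : 0 < v.ord (x - algebraMap K F a)) : 0 ≤ v.ord x := by
  rw [← Places.mem_iff_ord_nonneg v hx0]
  have h := add_mem (Places.mem_of_ord_pos v ha) (v.algebraMap_mem' a)
  simpa using h

/-- **Riemann–Hurwitz**, in terms of the numbers of places over the branch points. -/
theorem degree_eq (x : F) [FiniteDimensional K⟮x⟯ F] (hx : Transcendental K x)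
    (hcoeff : ∀ (v : Place K F) (π y c : F), v.ord π = 1 → v.ord y ≠ 0 →
      D K F y = c • D K F π → v.ord c = v.ord y - 1)
    (B : Finset K)
    (hunram : ∀ a, a ∉ B → ∀ v : Place K F, 0 < v.ord (x - algebraMap K F a) →
      v.ord (x - algebraMap K F a) ≤ 1)
    (ω : Ω[F⁄K]) (hω : ω ≠ 0) (D' : Divisor K F)
    (hD : ∀ v : Place K F, D' v = v.ordDifferential ω) :
    Divisor.degree D' =
      ∑ a ∈ B, ((Module.finrank K⟮x⟯ F : ℤ) -
        Nat.card {v : Place K F // 0 < v.ord (x - algebraMap K F a)})
      - (Module.finrank K⟮x⟯ F : ℤ) - Nat.card {v : Place K F // v.ord x < 0} := by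
  classical
  have hx0 : x ≠ 0 := fun h => hx (h ▸ isAlgebraic_zero)
  obtain ⟨g, hg⟩ := DiffCore.exists_eq_smul_D (K := K) x ω
  have hg0 : g ≠ 0 := by
    rintro rfl
    exact hω (by rw [hg, zero_smul])
  obtain ⟨E, hE, hEdeg⟩ := Places.exists_principal_divisor (K := K) x hg0
  have hDE : ∀ v : Place K F, (D' - E) v = v.ordDifferential (D K F x) := by
    intro v
    rw [Finsupp.sub_apply, hD, hE, hg, ordDifferential_smul_D x hx v hg0]
    ring
  have hdeg : Divisor.degree D' = Divisor.degree (D' - E) := by
    rw [map_sub, hEdeg, sub_zero]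
  rw [hdeg]
  obtain ⟨hP, hPsum⟩ := Places.sum_ord_poles x hx
  have hZ : ∀ a : K, {v : Place K F | 0 < v.ord (x - algebraMap K F a)}.Finite :=
    fun a => (Places.sum_ord_zeros_sub x hx a).1
  have hZsum := fun a : K => (Places.sum_ord_zeros_sub x hx a).2
  -- the local values
  have hκfin : ∀ (v : Place K F) (a : K), 0 < v.ord (x - algebraMap K F a) →
      v.ordDifferential (D K F x) = v.ord (x - algebraMap K F a) - 1 := by
    intro v a ha
    exact ordDifferential_D_of_coeff x hx hcoeff v _ (ne_of_gt ha) (D_sub_algebraMap x a)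
  have hκinf : ∀ v : Place K F, v.ord x < 0 → v.ordDifferential (D K F x) = v.ord x - 1 := by
    intro v hv
    exact ordDifferential_D_of_coeff x hx hcoeff v x (ne_of_lt hv) rfl
  let S : Finset (Place K F) := hP.toFinset ∪ B.biUnion fun a => (hZ a).toFinset
  have hsupp : (D' - E).support ⊆ S := by
    intro v hv
    rw [Finsupp.mem_support_iff, hDE] at hv
    rw [Finset.mem_union, Finset.mem_biUnion]
    rcases exists_ord_sub_pos_or x hx v with ⟨a, ha⟩ | hinf
    · right
      refine ⟨a, ?_, ?_⟩
      · by_contra haB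
        have h1 := hunram a haB v ha
        rw [hκfin v a ha] at hv
        omega
      · rw [Set.Finite.mem_toFinset]
        exact ha
    · left
      rw [Set.Finite.mem_toFinset]
      exact hinf
  have hdegS : Divisor.degree (D' - E) = ∑ v ∈ S, v.ordDifferential (D K F x) := by
    show (Finsupp.liftAddHom fun v : Place K F => AddMonoidHom.mulRight (v.deg : ℤ)) (D' - E) = _
    rw [Finsupp.liftAddHom_apply, Finsupp.sum_of_support_subset _ hsupp _ (fun v _ => by simp)]
    refine Finset.sum_congr rfl fun v _ => ?_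
    simp [Places.deg_one x v, hDE v]
  have hdisj : Disjoint hP.toFinset (B.biUnion fun a => (hZ a).toFinset) := by
    rw [Finset.disjoint_left]
    intro v h1 h2
    rw [Set.Finite.mem_toFinset] at h1
    rw [Finset.mem_biUnion] at h2
    obtain ⟨a, -, ha⟩ := h2
    rw [Set.Finite.mem_toFinset] at ha
    have h3 := ord_nonneg_of_ord_sub_pos x hx0 v ha
    have h1' : v.ord x < 0 := h1
    omega
  have hpair : (B : Set K).PairwiseDisjoint fun a => (hZ a).toFinset := by
    intro a _ b _ hab
    show Disjoint (hZ a).toFinset (hZ b).toFinset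
    rw [Finset.disjoint_left]
    intro v h1 h2
    rw [Set.Finite.mem_toFinset] at h1 h2
    exact hab (eq_of_ord_sub_pos v x h1 h2)
  have hpoles : ∑ v ∈ hP.toFinset, v.ordDifferential (D K F x) =
      -(Module.finrank K⟮x⟯ F : ℤ) - Nat.card {v : Place K F // v.ord x < 0} := by
    have h1 : ∀ v ∈ hP.toFinset, v.ordDifferential (D K F x) = v.ord x - 1 := by
      intro v hv
      rw [Set.Finite.mem_toFinset] at hv
      exact hκinf v hv
    have hcard : Nat.card {v : Place K F // v.ord x < 0} = hP.toFinset.card :=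
      Nat.card_eq_card_finite_toFinset hP
    rw [Finset.sum_congr rfl h1, Finset.sum_sub_distrib, ← finsum_mem_eq_finite_toFinset_sum _ hP,
      hPsum, hcard]
    simp
  have hzeros : ∀ a ∈ B, ∑ v ∈ (hZ a).toFinset, v.ordDifferential (D K F x) =
      (Module.finrank K⟮x⟯ F : ℤ) -
        Nat.card {v : Place K F // 0 < v.ord (x - algebraMap K F a)} := by
    intro a _
    have h1 : ∀ v ∈ (hZ a).toFinset,
        v.ordDifferential (D K F x) = v.ord (x - algebraMap K F a) - 1 := by
      intro v hv
      rw [Set.Finite.mem_toFinset] at hv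
      exact hκfin v a hv
    have hcard : Nat.card {v : Place K F // 0 < v.ord (x - algebraMap K F a)} =
        (hZ a).toFinset.card :=
      Nat.card_eq_card_finite_toFinset (hZ a)
    rw [Finset.sum_congr rfl h1, Finset.sum_sub_distrib,
      ← finsum_mem_eq_finite_toFinset_sum _ (hZ a), hZsum a, hcard]
    simp
  rw [hdegS, Finset.sum_union hdisj, Finset.sum_biUnion hpair, hpoles,
    Finset.sum_congr rfl hzeros]
  ring

/-- **Riemann–Hurwitz**, packaged: existence of a nonzero differential, and the degree of every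
canonical divisor, from the numbers `r a` of places over the branch points `a ∈ B` and `rinf` of
places over infinity. -/
theorem riemannHurwitz_core (x : F) [FiniteDimensional K⟮x⟯ F] (hx : Transcendental K x)
    (hcoeff : ∀ (v : Place K F) (π y c : F), v.ord π = 1 → v.ord y ≠ 0 →
      D K F y = c • D K F π → v.ord c = v.ord y - 1)
    (n : ℕ) (hn : Module.finrank K⟮x⟯ F = n) (B : Finset K) (r : K → ℕ) (rinf : ℕ)
    (hr : ∀ a ∈ B, Nat.card {v : Place K F // 0 < v.ord (x - algebraMap K F a)} = r a)
    (hunram : ∀ a, a ∉ B → ∀ v : Place K F, 0 < v.ord (x - algebraMap K F a) →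
      v.ord (x - algebraMap K F a) ≤ 1)
    (hrinf : Nat.card {v : Place K F // 0 < v.ord x⁻¹} = rinf) :
    (∃ ω : Ω[F⁄K], ω ≠ 0) ∧
    ∀ ω : Ω[F⁄K], ω ≠ 0 → ∀ D' : Divisor K F, (∀ v : Place K F, D' v = v.ordDifferential ω) →
      Divisor.degree D' = ∑ a ∈ B, ((n : ℤ) - r a) - (n : ℤ) - rinf := by
  refine ⟨⟨D K F x, DiffCore.D_ne_zero x hx⟩, fun ω hω D' hD => ?_⟩
  have hinf : Nat.card {v : Place K F // v.ord x < 0} = rinf := by
    rw [← hrinf]
    refine Nat.card_congr (Equiv.subtypeEquivRight fun v => ?_)
    rw [Place.ord_inv]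
    omega
  rw [degree_eq x hx hcoeff B hunram ω hω D' hD, hn, hinf]
  congr 2
  refine Finset.sum_congr rfl fun a ha => ?_
  rw [hr a ha]

end Global

end Fermat.Agent.S24.RHCore

end
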