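/-
S24 piece A4 (RH): Riemann–Hurwitz for a function field with local uniformisation data
everywhere.

`x` is transcendental (`LocalCount.transcendental_of_datum`).  Every place lies over exactly one
`a ∈ K` (`0 < ord_v (x - a)`, `Places.residue`) or over `∞` (`ord_v x < 0`).
`K(x - a) = K(x) = K(x⁻¹)`.  For `ω = g • D x`: `ordDifferential_v ω = ord_v g + ord_v c_v` with
`D x = c_v • D π_v`, and `ord_v c_v = ord_v (x - a) - 1` resp. `ord_v x - 1` (`Diff.ord_coeff`).
Sum over `v` (`RHCore.degree_eq`): `∑ ord_v g = 0` (`Places.exists_principal_divisor`),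
`∑_{v | a} (e_v - 1) = n - cyc (σ a)` (`Places.sum_ord_zeros_sub`, `LocalCount.local_count`; zero
when `m a = 1`), `∑_{v | ∞} (-e_v - 1) = -n - cyc σinf` (`Places.sum_ord_poles`).
-/
import Fermat.Agent.S24.Alg.RHCore
import Fermat.Agent.S24.Alg.LocalCount
import Fermat.Agent.S24.Alg.Diff

set_option autoImplicit false

noncomputable section

open AlgebraicCurve IntermediateField KaehlerDifferential

namespace Fermat.Agent.S24.RH

variable {K F : Type*} [Field K] [Field F] [Algebra K F] [IsAlgClosed K] [CharZero K]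

/-- `LocalCount.local_count` with the field `K(y)` given up to equality. -/
theorem local_count_of_eq {Ω : Type*} [Field Ω] (w : Valuation Ω (WithZero (Multiplicative ℤ)))
    (y : F) (E : IntermediateField K F) [FiniteDimensional E F] (hE : E = K⟮y⟯)
    {I : Type*} [Finite I] [Nonempty I] (hI : Module.finrank E F ≤ Nat.card I)
    (σ : Equiv.Perm I) (m : ℕ) (dat : ValDatum K w y σ m) :
    Module.finrank E F = Nat.card I ∧
    Nat.card {v : Place K F // 0 < v.ord y} = cyc σ ∧
    ∀ v : Place K F, 0 < v.ord y → v.ord y ≤ m := by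
  subst hE
  exact LocalCount.local_count w y hI σ m dat

theorem riemannHurwitz {Ω : Type*} [Field Ω] (x : F) [FiniteDimensional K⟮x⟯ F]
    {I : Type*} [Finite I] [Nonempty I] (hI : Module.finrank K⟮x⟯ F ≤ Nat.card I)
    (B : Finset K) (σ : K → Equiv.Perm I) (m : K → ℕ) (hm : ∀ a, a ∉ B → m a = 1)
    (w : K → Valuation Ω (WithZero (Multiplicative ℤ)))
    (dat : ∀ a : K, Nonempty (ValDatum K (w a) (x - algebraMap K F a) (σ a) (m a)))
    (σinf : Equiv.Perm I) (minf : ℕ) (winf : Valuation Ω (WithZero (Multiplicative ℤ)))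
    (datinf : Nonempty (ValDatum K winf x⁻¹ σinf minf)) :
    (∃ ω : Ω[F⁄K], ω ≠ 0) ∧
    ∀ ω : Ω[F⁄K], ω ≠ 0 → ∀ D : Divisor K F, (∀ v : Place K F, D v = v.ordDifferential ω) →
      Divisor.degree D
        = ∑ a ∈ B, ((Nat.card I : ℤ) - cyc (σ a)) - (Nat.card I : ℤ) - cyc σinf := by
  have hx : Transcendental K x := by
    obtain ⟨d0⟩ := dat 0
    have h := LocalCount.transcendental_of_datum (w 0) (x - algebraMap K F 0) (σ 0) (m 0) d0
    rwa [map_zero, sub_zero] at h
  have hloc : ∀ a : K, Module.finrank K⟮x⟯ F = Nat.card I ∧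
      Nat.card {v : Place K F // 0 < v.ord (x - algebraMap K F a)} = cyc (σ a) ∧
      ∀ v : Place K F, 0 < v.ord (x - algebraMap K F a) →
        v.ord (x - algebraMap K F a) ≤ m a := by
    intro a
    obtain ⟨d⟩ := dat a
    exact local_count_of_eq (w a) (x - algebraMap K F a) K⟮x⟯ (Places.adjoin_sub_eq x a) hI
      (σ a) (m a) d
  have hlocinf : Nat.card {v : Place K F // 0 < v.ord x⁻¹} = cyc σinf := by
    obtain ⟨d⟩ := datinf
    exact (local_count_of_eq winf x⁻¹ K⟮x⟯ (Places.adjoin_inv_eq x) hI σinf minf d).2.1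
  refine RHCore.riemannHurwitz_core x hx
    (fun v π y c hπ hy h => Diff.ord_coeff x hx v π y c hπ hy h)
    (Nat.card I) (hloc 0).1 B (fun a => cyc (σ a)) (cyc σinf)
    (fun a _ => (hloc a).2.1) ?_ hlocinf
  intro a ha v hv
  have h := (hloc a).2.2 v hv
  rw [hm a ha] at h
  exact_mod_cast h

end Fermat.Agent.S24.RH

end
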