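/-
S24 piece A2 (PRINCIPAL): principal divisors have finite support and degree zero.
(Thin wrappers around `Places.exists_principal_divisor` of `PlacesMore.lean`.)
-/
import Fermat.Agent.S24.Alg.Places

set_option autoImplicit false

noncomputable section

open AlgebraicCurve IntermediateField

namespace Fermat.Agent.S24.PrincipalDeg

variable {K F : Type*} [Field K] [Field F] [Algebra K F] [IsAlgClosed K] [CharZero K]

theorem finite_support_ord (x : F) [FiniteDimensional K⟮x⟯ F] (_hx : Transcendental K x)
    (g : F) (hg : g ≠ 0) : (Function.support fun v : Place K F => v.ord g).Finite := by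
  obtain ⟨D, hD, -⟩ := Places.exists_principal_divisor (K := K) x hg
  have : (Function.support fun v : Place K F => v.ord g) = (D.support : Set (Place K F)) := by
    ext v
    simp [← hD v]
  rw [this]
  exact D.support.finite_toSet

theorem finsum_ord_eq_zero (x : F) [FiniteDimensional K⟮x⟯ F] (_hx : Transcendental K x)
    (g : F) (hg : g ≠ 0) : ∑ᶠ v : Place K F, v.ord g = 0 := by
  obtain ⟨D, hD, hdeg⟩ := Places.exists_principal_divisor (K := K) x hg
  have hsub : (Function.support fun v : Place K F => v.ord g) ⊆ (D.support : Set (Place K F)) := by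
    intro v hv
    simpa [← hD v] using hv
  rw [finsum_eq_sum_of_support_subset _ hsub, ← hdeg]
  show _ = (Finsupp.liftAddHom fun v : Place K F => AddMonoidHom.mulRight (v.deg : ℤ)) D
  rw [Finsupp.liftAddHom_apply, Finsupp.sum]
  refine Finset.sum_congr rfl fun v _ => ?_
  simp [Places.deg_one x v, hD v]

end Fermat.Agent.S24.PrincipalDeg

end
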