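/-
S24 piece A4 (RH), local part: the order of `g • dx` at a place, in terms of `ord (x - a)` at the
zeros of `x - a` and of `ord x` at the poles of `x`.
-/
import Fermat.Agent.S24.Alg.Diff

set_option autoImplicit false

noncomputable section

open AlgebraicCurve IntermediateField KaehlerDifferential

namespace Fermat.Agent.S24.RHLocal

variable {K F : Type*} [Field K] [Field F] [Algebra K F] [IsAlgClosed K] [CharZero K]

omit [IsAlgClosed K] [CharZero K] in
/-- The (private) uniformizer behind `Place.dCoord`. -/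
theorem exists_dCoord_eq (v : Place K F) :
    ∃ π : F, v.ord π = 1 ∧ v.dCoord = KaehlerDifferential.D K F π :=
  ⟨_, v.ord_coe_irreducible
    (IsDiscreteValuationRing.exists_irreducible v.toValuationSubring).choose_spec, rfl⟩

/-- `dCoord` is nonzero. -/
theorem dCoord_ne_zero (x : F) [FiniteDimensional K⟮x⟯ F] (hx : Transcendental K x)
    (v : Place K F) : v.dCoord ≠ 0 := by
  obtain ⟨π, hπ, hd⟩ := exists_dCoord_eq v
  rw [hd]
  exact Diff.D_uniformizer_ne_zero x hx v π hπ

/-- Every differential is a multiple of `dCoord`. -/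
theorem exists_eq_smul_dCoord (x : F) [FiniteDimensional K⟮x⟯ F] (hx : Transcendental K x)
    (v : Place K F) (ω : Ω[F⁄K]) : ∃ f : F, ω = f • v.dCoord := by
  obtain ⟨g, hg⟩ := Diff.exists_eq_smul_D x hx ω
  obtain ⟨c, hc⟩ := Diff.exists_eq_smul_D x hx v.dCoord
  have hc0 : c ≠ 0 := by
    rintro rfl
    rw [zero_smul] at hc
    exact dCoord_ne_zero x hx v hc
  refine ⟨g * c⁻¹, ?_⟩
  rw [hg, mul_smul]
  congr 1
  rw [hc, smul_smul, inv_mul_cancel₀ hc0, one_smul]

/-- The coefficient of `ω` with respect to `dCoord` is characterised by `ω = f • dCoord`. -/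
theorem differentialCoeff_eq (x : F) [FiniteDimensional K⟮x⟯ F] (hx : Transcendental K x)
    (v : Place K F) {ω : Ω[F⁄K]} {f : F} (h : ω = f • v.dCoord) :
    v.differentialCoeff ω = f := by
  have hex : ∃ f : F, ω = f • v.dCoord := ⟨f, h⟩
  have h1 : v.differentialCoeff ω = hex.choose := by
    unfold Place.differentialCoeff
    rw [dif_pos hex]
  have h2 := hex.choose_spec
  rw [h1]
  have h3 : (hex.choose - f) • v.dCoord = 0 := by
    rw [sub_smul, ← h2, ← h, sub_self]
  rcases smul_eq_zero.mp h3 with h4 | h4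
  · exact sub_eq_zero.mp h4
  · exact absurd h4 (dCoord_ne_zero x hx v)

/-- `ord_v (g • ω) = ord_v g + ord_v ω` for `g ≠ 0`, `ω ≠ 0`. -/
theorem ordDifferential_smul (x : F) [FiniteDimensional K⟮x⟯ F] (hx : Transcendental K x)
    (v : Place K F) {g : F} (hg : g ≠ 0) {ω : Ω[F⁄K]} (hω : ω ≠ 0) :
    v.ordDifferential (g • ω) = v.ord g + v.ordDifferential ω := by
  obtain ⟨f, hf⟩ := exists_eq_smul_dCoord x hx v ω
  have hf0 : f ≠ 0 := by
    rintro rfl
    rw [zero_smul] at hf
    exact hω hf
  have h1 : v.differentialCoeff ω = f := differentialCoeff_eq x hx v hf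
  have h2 : v.differentialCoeff (g • ω) = g * f :=
    differentialCoeff_eq x hx v (by rw [hf, mul_smul])
  unfold Place.ordDifferential
  rw [h1, h2, v.ord_mul hg hf0]

/-- `ord_v (g • dx) = ord_v g + ord_v (dx)`. -/
theorem ordDifferential_smul_D (x : F) [FiniteDimensional K⟮x⟯ F] (hx : Transcendental K x)
    (v : Place K F) {g : F} (hg : g ≠ 0) :
    v.ordDifferential (g • KaehlerDifferential.D K F x)
      = v.ord g + v.ordDifferential (KaehlerDifferential.D K F x) :=
  ordDifferential_smul x hx v hg (Diff.D_ne_zero x hx)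

/-- If `D x = D y` and `ord_v y ≠ 0` then `ord_v (dx) = ord_v y - 1`. -/
theorem ordDifferential_D_of_D_eq (x : F) [FiniteDimensional K⟮x⟯ F] (hx : Transcendental K x)
    (v : Place K F) (y : F) (hD : KaehlerDifferential.D K F x = KaehlerDifferential.D K F y)
    (hy : v.ord y ≠ 0) :
    v.ordDifferential (KaehlerDifferential.D K F x) = v.ord y - 1 := by
  obtain ⟨π, hπ, hd⟩ := exists_dCoord_eq v
  obtain ⟨c, hc⟩ := exists_eq_smul_dCoord x hx v (KaehlerDifferential.D K F x)
  have h1 : v.differentialCoeff (KaehlerDifferential.D K F x) = c :=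
    differentialCoeff_eq x hx v hc
  unfold Place.ordDifferential
  rw [h1]
  refine Diff.ord_coeff x hx v π y c hπ hy ?_
  rw [← hD, hc, hd]

/-- At a zero of `x - a`: `ord_v (dx) = ord_v (x - a) - 1`. -/
theorem ordDifferential_D_zero (x : F) [FiniteDimensional K⟮x⟯ F] (hx : Transcendental K x)
    (v : Place K F) (a : K) (h : 0 < v.ord (x - algebraMap K F a)) :
    v.ordDifferential (KaehlerDifferential.D K F x) = v.ord (x - algebraMap K F a) - 1 := by
  refine ordDifferential_D_of_D_eq x hx v _ ?_ h.ne'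
  rw [map_sub, Derivation.map_algebraMap, sub_zero]

/-- At a pole of `x`: `ord_v (dx) = ord_v x - 1`. -/
theorem ordDifferential_D_pole (x : F) [FiniteDimensional K⟮x⟯ F] (hx : Transcendental K x)
    (v : Place K F) (h : v.ord x < 0) :
    v.ordDifferential (KaehlerDifferential.D K F x) = v.ord x - 1 :=
  ordDifferential_D_of_D_eq x hx v x rfl h.ne

end Fermat.Agent.S24.RHLocal

end
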