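/-
S24, helper file for piece A4 (RH), slice (R1): the degree of a divisor does not change when the
orders of a nonzero function are added pointwise (principal divisors have degree zero).  Stated
without differentials.
-/
import Fermat.Agent.S24.PlacesMore

set_option autoImplicit false

noncomputable section

open AlgebraicCurve IntermediateField

namespace Fermat.Agent.S24.RHReduce

variable {K F : Type*} [Field K] [Field F] [Algebra K F] [IsAlgClosed K] [CharZero K]

/-- If `D1 v = v.ord g + D2 v` at every place, with `g ≠ 0`, then `D1` and `D2` have the same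
degree. -/
theorem degree_eq_of_add_ord (x : F) [FiniteDimensional K⟮x⟯ F] {g : F} (hg : g ≠ 0)
    (D1 D2 : Divisor K F) (h : ∀ v : Place K F, D1 v = v.ord g + D2 v) :
    Divisor.degree D1 = Divisor.degree D2 := by
  obtain ⟨Dg, hDg, hdeg⟩ := Places.exists_principal_divisor (K := K) x hg
  have h1 : D1 = Dg + D2 := by
    ext v
    rw [Finsupp.add_apply, h v, hDg v]
  rw [h1, map_add, hdeg, zero_add]

/-- From a divisor `D1` with `D1 v = v.ord g + d v` at every place (`g ≠ 0`, `d` any function)
one gets a divisor with values `d v`, of the same degree. -/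
theorem exists_divisor_of_add_ord (x : F) [FiniteDimensional K⟮x⟯ F] {g : F} (hg : g ≠ 0)
    (D1 : Divisor K F) (d : Place K F → ℤ) (h : ∀ v : Place K F, D1 v = v.ord g + d v) :
    ∃ D2 : Divisor K F, (∀ v : Place K F, D2 v = d v) ∧
      Divisor.degree D1 = Divisor.degree D2 := by
  obtain ⟨Dg, hDg, hdeg⟩ := Places.exists_principal_divisor (K := K) x hg
  refine ⟨D1 - Dg, fun v => ?_, ?_⟩
  · rw [Finsupp.sub_apply, h v, hDg v]
    ring
  · rw [map_sub, hdeg, sub_zero]

/-- The statement requested by the owner under the name `exists_divisor_of_ordDifferential_D`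
(same content as `exists_divisor_of_add_ord`, without the degree clause). -/
theorem exists_divisor_of_ordDifferential_D (x : F) [FiniteDimensional K⟮x⟯ F] {g : F}
    (hg : g ≠ 0) (D1 : Divisor K F) (d : Place K F → ℤ)
    (h : ∀ v : Place K F, D1 v = v.ord g + d v) :
    ∃ D2 : Divisor K F, ∀ v : Place K F, D2 v = d v :=
  let ⟨D2, hD2, _⟩ := exists_divisor_of_add_ord x hg D1 d h
  ⟨D2, hD2⟩

omit [IsAlgClosed K] [CharZero K] in
/-- The degree of a divisor with values `d v` is determined by `d` (two divisors with the same
values are equal). -/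
theorem degree_congr (D D' : Divisor K F) (h : ∀ v : Place K F, D v = D' v) :
    Divisor.degree D = Divisor.degree D' := by
  have : D = D' := Finsupp.ext h
  rw [this]

omit [CharZero K] in
/-- For a divisor all of whose places have degree one, the degree is the finite sum of its
values over any finite set containing the support. -/
theorem degree_eq_finsum (x : F) [FiniteDimensional K⟮x⟯ F] (D : Divisor K F)
    (S : Set (Place K F)) (hS : S.Finite) (hsupp : ∀ v : Place K F, D v ≠ 0 → v ∈ S) :
    Divisor.degree D = ∑ᶠ v ∈ S, D v := by
  classical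
  have hdeg : ∀ v : Place K F, (v.deg : ℤ) = 1 := fun v => by
    rw [Places.deg_one x v]
    rfl
  have h1 : Divisor.degree D = ∑ v ∈ D.support, D v := by
    conv_lhs => rw [← Finsupp.sum_single D]
    rw [Finsupp.sum, map_sum]
    refine Finset.sum_congr rfl fun v _ => ?_
    rw [Divisor.degree_single, hdeg, mul_one]
  rw [h1, finsum_mem_eq_finite_toFinset_sum _ hS]
  refine Finset.sum_subset ?_ ?_
  · intro v hv
    rw [Set.Finite.mem_toFinset]
    exact hsupp v (Finsupp.mem_support_iff.mp hv)
  · intro v _ hv
    simpa using hv

end Fermat.Agent.S24.RHReduce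

end
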